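import Fermat.Agent.AbVar.Scheme.Affine

/-!
# Cartier data with prescribed denominators
-/

set_option autoImplicit false

noncomputable section

universe u

open CategoryTheory CategoryTheory.Limits AlgebraicGeometry NeronModelInfra GoodReductionJacobian
open IsLocalRing TopologicalSpace
open scoped Classical

namespace Fermat.Agent.AbVar

namespace AbData

variable {K : Type u} [Field K] [IsAlgClosed K] (X : AbData K)

/-- Generators of an invertible ideal sheaf, one at each point. -/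
structure CartierData where
  gen : X.A → X.Fun
  gen_ne_zero : ∀ z, gen z ≠ 0
  gen_mem : ∀ z, gen z ∈ X.loc z
  coherent : ∀ z, ∃ U : X.A.Opens, z ∈ U ∧
    ∀ w ∈ U, gen z / gen w ∈ X.loc w ∧ gen w / gen z ∈ X.loc w

/-- In the local rings at rational points, `{x | a ∣ x b}` is a principal ideal. -/
def HasColonGenerators : Prop :=
  ∀ (p : X.Pt K) (a b : X.loc (X.img p)), a ≠ 0 → ∃ c, ∀ h, a ∣ h * b ↔ c ∣ h

theorem exists_open_mem_loc {z : X.A} {f : X.Fun} (hf : f ∈ X.loc z) :
    ∃ W : X.A.Opens, z ∈ W ∧ ∀ w ∈ W, f ∈ X.loc w := by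
  obtain ⟨s, rfl⟩ := hf
  obtain ⟨W, hW, r, rfl⟩ := X.A.presheaf.exists_germ_eq s
  refine ⟨W, hW, fun w hw => ⟨X.A.presheaf.germ W w hw r, ?_⟩⟩
  show X.A.presheaf.stalkSpecializes _ _ = X.A.presheaf.stalkSpecializes _ _
  rw [TopCat.Presheaf.germ_stalkSpecializes_apply, TopCat.Presheaf.germ_stalkSpecializes_apply]

/-- `g` generates, at `w`, the functions which clear the denominators of `S`. -/
def IsDenGen (S : Finset X.Fun) (w : X.A) (g : X.Fun) : Prop :=
  g ≠ 0 ∧ g ∈ X.loc w ∧ (∀ s ∈ S, g * s ∈ X.loc w) ∧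
    ∀ h, h ∈ X.loc w → (∀ s ∈ S, h * s ∈ X.loc w) → h / g ∈ X.loc w

theorem IsDenGen.div_mem {S : Finset X.Fun} {w : X.A} {g g' : X.Fun} (hg : X.IsDenGen S w g)
    (hg' : X.IsDenGen S w g') : g' / g ∈ X.loc w :=
  hg.2.2.2 g' hg'.2.1 hg'.2.2.1

theorem exists_isDenGen_pt (hcolon : X.HasColonGenerators) (p : X.Pt K) (S : Finset X.Fun) :
    ∃ g, X.IsDenGen S (X.img p) g := by
  induction S using Finset.induction with
  | empty =>
    exact ⟨1, one_ne_zero, one_mem _, by simp, fun h hh _ => by rwa [div_one]⟩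
  | @insert s S hs ih =>
    obtain ⟨g, hg0, hgm, hgS, hgmax⟩ := ih
    obtain ⟨a, b, hb, hab⟩ :=
      IsFractionRing.div_surjective (A := X.A.presheaf.stalk (X.img p)) s
    let A' : X.loc (X.img p) := ⟨X.toFun _ a, a, rfl⟩
    let B' : X.loc (X.img p) := ⟨X.toFun _ b, b, rfl⟩
    let G' : X.loc (X.img p) := ⟨g, hgm⟩
    have hb0 : (B' : X.Fun) ≠ 0 := fun h0 =>
      nonZeroDivisors.ne_zero hb (X.toFun_injective _ (by rw [map_zero]; exact h0))
    have hs' : s = (A' : X.Fun) / B' := hab.symm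
    obtain ⟨c, hc⟩ := hcolon p B' (G' * A') fun h => hb0 (congrArg Subtype.val h)
    have hkey : ∀ k : X.loc (X.img p), B' ∣ k * (G' * A') ↔ (k : X.Fun) * g * s ∈ X.loc (X.img p) := by
      intro k
      constructor
      · rintro ⟨q, hq⟩
        have hq' : (k : X.Fun) * (g * A') = B' * q := congrArg Subtype.val hq
        have : (k : X.Fun) * g * s = q := by
          rw [hs', ← mul_div_assoc, mul_assoc, hq', mul_comm, mul_div_assoc, div_self hb0, mul_one]
        rw [this]; exact q.2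
      · intro h
        refine ⟨⟨_, h⟩, Subtype.ext ?_⟩
        show (k : X.Fun) * (g * A') = (B' : X.Fun) * ((k : X.Fun) * g * s)
        rw [hs']
        field_simp
    have hc0 : (c : X.Fun) ≠ 0 := by
      intro h0
      obtain ⟨q, hq⟩ := (hc B').mp (dvd_mul_right _ _)
      exact hb0 (by rw [congrArg Subtype.val hq]; show (c : X.Fun) * q = 0; rw [h0, zero_mul])
    refine ⟨g * c, mul_ne_zero hg0 hc0, mul_mem hgm c.2, fun t ht => ?_, fun h hh hhS => ?_⟩
    · rcases Finset.mem_insert.mp ht with rfl | ht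
      · have := (hkey c).mp ((hc c).mpr dvd_rfl)
        rwa [mul_comm (c : X.Fun) g] at this
      · have e : g * (c : X.Fun) * t = g * t * c := by ring
        rw [e]
        exact mul_mem (hgS t ht) c.2
    · have hk : h / g ∈ X.loc (X.img p) :=
        hgmax h hh fun t ht => hhS t (Finset.mem_insert_of_mem ht)
      obtain ⟨q, hq⟩ := (hc ⟨_, hk⟩).mp ((hkey _).mpr (by
        show h / g * g * s ∈ _
        rw [div_mul_cancel₀ _ hg0]
        exact hhS s (Finset.mem_insert_self _ _)))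
      have hq' : h / g = (c : X.Fun) * q := congrArg Subtype.val hq
      rw [← div_div, hq', mul_comm, mul_div_assoc, div_self hc0, mul_one]
      exact q.2

namespace Chart

variable {X} (c : X.Chart)

theorem exists_sec_div {w : X.A} (hw : w ∈ c.U) {f : X.Fun} (hf : f ∈ X.loc w) :
    ∃ r d : Γ(X.A, c.U), IsUnit (X.A.presheaf.germ c.U w hw d) ∧
      f * c.sec (X.genericPoint_mem hw) d = c.sec (X.genericPoint_mem hw) r := by
  obtain ⟨s, rfl⟩ := hf
  let := X.A.presheaf.algebra_section_stalk (⟨w, hw⟩ : c.U)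
  have := c.affine.isLocalization_stalk ⟨w, hw⟩
  obtain ⟨⟨r, d⟩, hrd⟩ := IsLocalization.surj
    (c.affine.primeIdealOf ⟨w, hw⟩).asIdeal.primeCompl s
  refine ⟨r, d, IsLocalization.map_units (X.A.presheaf.stalk w) d, ?_⟩
  rw [c.sec_eq hw, c.sec_eq hw, ← map_mul]
  exact congrArg _ hrd

theorem inv_sec_mem {w : X.A} (hw : w ∈ c.U) {d : Γ(X.A, c.U)}
    (hd : IsUnit (X.A.presheaf.germ c.U w hw d)) :
    (c.sec (X.genericPoint_mem hw) d)⁻¹ ∈ X.loc w := by
  obtain ⟨v, hv⟩ := isUnit_iff_exists_inv.mp hd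
  refine ⟨v, eq_inv_of_mul_eq_one_left ?_⟩
  show X.toFun w v * _ = 1
  rw [c.sec_eq hw, ← map_mul, mul_comm, hv, map_one]

theorem sec_ne_zero {w : X.A} (hw : w ∈ c.U) {d : Γ(X.A, c.U)}
    (hd : IsUnit (X.A.presheaf.germ c.U w hw d)) :
    c.sec (X.genericPoint_mem hw) d ≠ 0 := by
  rw [c.sec_eq hw]
  exact fun h => hd.ne_zero (X.toFun_injective _ (by rw [h, map_zero]))

/-- The sections clearing the denominators of `S`. -/
def denIdeal (hne : genericPoint X.A ∈ c.U) (S : Finset X.Fun) : Ideal Γ(X.A, c.U) where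
  carrier := {r | ∀ s ∈ S, c.sec hne r * s ∈ (c.sec hne).range}
  add_mem' := fun ha hb s hs => by rw [map_add, add_mul]; exact add_mem (ha s hs) (hb s hs)
  zero_mem' := fun s _ => by rw [map_zero, zero_mul]; exact zero_mem _
  smul_mem' := fun k r hr s hs => by
    rw [smul_eq_mul, map_mul, mul_assoc]
    exact mul_mem ⟨k, rfl⟩ (hr s hs)

theorem exists_nbhd_isDenGen {p : X.A} (hp : p ∈ c.U) (S : Finset X.Fun) {g : X.Fun}
    (hg : X.IsDenGen S p g) :
    ∃ W : X.A.Opens, p ∈ W ∧ ∀ w ∈ W, X.IsDenGen S w g := by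
  let := c.algebra
  have : Algebra.IsStandardSmoothOfRelativeDimension X.dim K Γ(X.A, c.U) := c.smooth
  have : Algebra.IsStandardSmooth K Γ(X.A, c.U) :=
    Algebra.IsStandardSmoothOfRelativeDimension.isStandardSmooth X.dim
  have : IsNoetherianRing Γ(X.A, c.U) := Algebra.FiniteType.isNoetherianRing K _
  have hne := X.genericPoint_mem hp
  obtain ⟨J, hJ⟩ := (IsNoetherian.noetherian (c.denIdeal hne S) : (c.denIdeal hne S).FG)
  let T : Finset X.Fun := insert g (S.image (g * ·) ∪ J.image fun j => c.sec hne j / g)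
  have hT : ∀ f ∈ T, f ∈ X.loc p := by
    intro f hf
    rcases Finset.mem_insert.mp hf with rfl | hf
    · exact hg.2.1
    rcases Finset.mem_union.mp hf with hf | hf
    · obtain ⟨s, hs, rfl⟩ := Finset.mem_image.mp hf
      exact hg.2.2.1 s hs
    · obtain ⟨j, hj, rfl⟩ := Finset.mem_image.mp hf
      refine hg.2.2.2 _ (c.sec_mem hp _ _) fun s hs => ?_
      have hjm : j ∈ c.denIdeal hne S := hJ ▸ Ideal.subset_span hj
      obtain ⟨r, hr⟩ := hjm s hs
      rw [← hr]
      exact c.sec_mem hp _ _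
  choose! Wf hWf hWf' using fun f (hf : f ∈ T) => X.exists_open_mem_loc (hT f hf)
  let W : X.A.Opens := c.U ⊓ T.inf Wf
  have hpinf : p ∈ T.inf Wf := by
    have : ∀ T' : Finset X.Fun, T' ⊆ T → p ∈ T'.inf Wf := by
      intro T'
      induction T' using Finset.induction with
      | empty => intro _; simp
      | @insert f T' _ ih =>
        intro h
        rw [Finset.inf_insert]
        exact ⟨hWf f (h (Finset.mem_insert_self _ _)),
          ih ((Finset.subset_insert _ _).trans h)⟩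
    exact this T le_rfl
  refine ⟨W, ⟨hp, hpinf⟩, fun w ⟨hwU, hwT⟩ => ?_⟩
  have hwf : ∀ f ∈ T, f ∈ X.loc w := fun f hf => hWf' f hf w ((Finset.inf_le (f := Wf) hf : T.inf Wf ≤ Wf f) hwT)
  refine ⟨hg.1, hwf g (Finset.mem_insert_self _ _), fun s hs =>
    hwf _ (Finset.mem_insert_of_mem (Finset.mem_union_left _ (Finset.mem_image_of_mem _ hs))),
    fun h hh hhS => ?_⟩
  -- write `h` and the `h s` over common denominators in the chart
  obtain ⟨r, d, hd, hrd⟩ := c.exists_sec_div hwU hh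
  have hex : ∀ s : S, ∃ r' d' : Γ(X.A, c.U), IsUnit (X.A.presheaf.germ c.U w hwU d') ∧
      h * s * c.sec hne d' = c.sec hne r' := fun s => c.exists_sec_div hwU (hhS s s.2)
  choose r' d' hd' hrd' using hex
  let D := d * ∏ s : S, d' s
  have hD : IsUnit (X.A.presheaf.germ c.U w hwU D) := by
    rw [map_mul, map_prod]
    exact hd.mul (IsUnit.prod_iff.mpr fun s _ => hd' s)
  have hDmem : r * ∏ s : S, d' s ∈ c.denIdeal hne S := by
    intro s hs
    refine ⟨d * r' ⟨s, hs⟩ * ∏ t ∈ Finset.univ.erase ⟨s, hs⟩, d' t, ?_⟩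
    rw [← Finset.mul_prod_erase Finset.univ d' (Finset.mem_univ (⟨s, hs⟩ : S))]
    simp only [map_mul, ← hrd, ← hrd']
    ring
  rw [← hJ] at hDmem
  obtain ⟨co, hco⟩ := Submodule.mem_span_finset.mp hDmem
  have hval : h / g = (∑ j ∈ J, c.sec hne (co j) * (c.sec hne j / g)) * (c.sec hne D)⁻¹ := by
    have h1 : h * c.sec hne D = c.sec hne (r * ∏ s : S, d' s) := by
      simp only [D, map_mul, ← hrd]; ring
    rw [← hco.2] at h1
    simp only [smul_eq_mul, map_sum, map_mul] at h1
    simp only [← mul_div_assoc, ← Finset.sum_div, ← h1]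
    have := c.sec_ne_zero hwU hD
    field_simp
  rw [hval]
  exact mul_mem (Subalgebra.sum_mem _ fun j hj => mul_mem (c.sec_mem hwU _ _)
    (hwf _ (Finset.mem_insert_of_mem (Finset.mem_union_right _ (Finset.mem_image_of_mem _ hj)))))
    (c.inv_sec_mem hwU hD)

end Chart

theorem exists_cartierData (hcolon : X.HasColonGenerators) (S : Finset X.Fun) :
    ∃ D : X.CartierData, ∀ z, ∀ s ∈ S, D.gen z * s ∈ X.loc z := by
  have key : ∀ z : X.A, ∃ (W : X.A.Opens) (g : X.Fun),
      z ∈ W ∧ ∀ w ∈ W, X.IsDenGen S w g := by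
    intro z
    obtain ⟨c, hc⟩ := X.exists_chart z
    obtain ⟨p, hp, hzp⟩ := X.exists_pt_specializes hc
    obtain ⟨g, hg⟩ := X.exists_isDenGen_pt hcolon p S
    obtain ⟨W, hpW, hW⟩ := c.exists_nbhd_isDenGen hp S hg
    exact ⟨W, g, hzp.mem_open W.2 hpW, hW⟩
  choose W g hzW hW using key
  refine ⟨⟨g, fun z => (hW z z (hzW z)).1, fun z => (hW z z (hzW z)).2.1,
    fun z => ⟨W z, hzW z, fun w hw => ⟨?_, ?_⟩⟩⟩, fun z s hs => (hW z z (hzW z)).2.2.1 s hs⟩
  · exact IsDenGen.div_mem X (hW w w (hzW w)) (hW z w hw)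
  · exact IsDenGen.div_mem X (hW z w hw) (hW w w (hzW w))

/-- The shifted coordinates generate the maximal ideal, and separate the rational points. -/
theorem exists_coords_chart :
    ∃ (U : X.A.Opens) (S : Finset X.Fun), X.img (0 : X.Pt K) ∈ U ∧
      (∀ h ∈ S, ∀ z ∈ U, h ∈ X.loc z) ∧
      (∀ p : X.Pt K, X.img p ∈ U → ∀ hS : ∀ h ∈ S, h ∈ X.loc (X.img p),
        maximalIdeal (X.loc (X.img p)) = Ideal.span (Set.range fun h : S =>
          (⟨h.1, hS h.1 h.2⟩ : X.loc (X.img p)) -
            algebraMap K _ (X.ev p ⟨h.1, hS h.1 h.2⟩))) ∧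
      ∀ p q : X.Pt K, X.img p ∈ U → X.img q ∈ U →
        (∀ h ∈ S, ∀ hp hq, X.ev p ⟨h, hp⟩ = X.ev q ⟨h, hq⟩) → p = q := by
  obtain ⟨c, hc⟩ := X.exists_chart (X.img (0 : X.Pt K))
  obtain ⟨G, hG⟩ := c.exists_finset
  let := c.algebra
  have hne := X.genericPoint_mem hc
  refine ⟨c.U, G.image (c.sec hne), hc, ?_, ?_, ?_⟩
  · intro h hh z hz
    obtain ⟨r, -, rfl⟩ := Finset.mem_image.mp hh
    exact c.sec_mem hz _ _
  · intro p hp hS
    set S := G.image (c.sec hne)
    let ι : Γ(X.A, c.U) →ₐ[K] X.loc (X.img p) :=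
      { toRingHom := (c.sec hne).codRestrict (X.loc (X.img p)).toSubring fun r => c.sec_mem hp _ r
        commutes' := fun a => Subtype.ext (by
          show c.sec hne (c.hom a) = algebraMap K X.Fun a
          rw [c.sec_eq hp, c.germ_hom hp, X.toFun_cst]) }
    have hι : ∀ r, X.ev p (ι r) = c.evalSec p hp r := fun r =>
      (c.evalSec_eq p hp r (c.sec_mem hp _ r)).symm
    set I : Ideal (X.loc (X.img p)) := Ideal.span (Set.range fun h : S =>
      (⟨h.1, hS h.1 h.2⟩ : X.loc (X.img p)) - algebraMap K _ (X.ev p ⟨h.1, hS h.1 h.2⟩))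
    have hshift : ∀ r, ι r - algebraMap K _ (X.ev p (ι r)) ∈ I := by
      intro r
      have hr : r ∈ Algebra.adjoin K (G : Set Γ(X.A, c.U)) := by rw [hG]; trivial
      induction hr using Algebra.adjoin_induction with
      | mem x hx =>
        exact Ideal.subset_span ⟨⟨_, Finset.mem_image_of_mem _ hx⟩, rfl⟩
      | algebraMap a => simp
      | add x y _ _ hx hy =>
        convert add_mem hx hy using 1
        simp only [map_add]; ring
      | mul x y _ _ hx hy =>
        convert add_mem (Ideal.mul_mem_right (ι y) _ hx)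
          (Ideal.mul_mem_left _ (algebraMap K _ (X.ev p (ι x))) hy) using 1
        simp only [map_mul]; ring
    refine le_antisymm ?_ (Ideal.span_le.mpr ?_)
    · rintro ⟨f, hf⟩ hfm
      obtain ⟨r, d, hd, hrd⟩ := c.exists_sec_div hp hf
      have hfd : (⟨f, hf⟩ : X.loc (X.img p)) * ι d = ι r := Subtype.ext hrd
      have hu : IsUnit (ι d) := by
        refine (X.isUnit_ev_iff p _).mp (isUnit_iff_ne_zero.mpr ?_)
        rw [hι]
        exact (hd.map (X.stk p)).ne_zero
      have hev : X.ev p (ι r) = 0 := by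
        by_contra h
        have h1 := (X.isUnit_ev_iff p _).mp (isUnit_iff_ne_zero.mpr h)
        rw [← hfd] at h1
        exact (IsLocalRing.mem_maximalIdeal _).mp hfm (isUnit_of_mul_isUnit_left h1)
      have h2 := hshift r
      rw [hev, map_zero, sub_zero, ← hfd] at h2
      exact (Ideal.mul_unit_mem_iff_mem _ hu).mp h2
    · rintro _ ⟨h, rfl⟩
      rw [SetLike.mem_coe, IsLocalRing.mem_maximalIdeal, mem_nonunits_iff]
      intro hu
      have h1 := ((X.isUnit_ev_iff p _).mpr hu).ne_zero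
      rw [map_sub, AlgHom.commutes] at h1
      simp at h1
  · intro p q hp hq h
    have heq : c.evalSec p hp = c.evalSec q hq := by
      refine RingHom.ext fun r => ?_
      have hr : r ∈ Algebra.adjoin K (G : Set Γ(X.A, c.U)) := by rw [hG]; trivial
      induction hr using Algebra.adjoin_induction with
      | mem x hx =>
        rw [c.evalSec_eq p hp x (c.sec_mem hp _ x), c.evalSec_eq q hq x (c.sec_mem hq _ x)]
        exact h _ (Finset.mem_image_of_mem _ hx) _ _
      | algebraMap a => exact (c.evalSec_hom p hp a).trans (c.evalSec_hom q hq a).symm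
      | add x y _ _ hx hy => rw [map_add, map_add, hx, hy]
      | mul x y _ _ hx hy => rw [map_mul, map_mul, hx, hy]
    rw [← c.ofSec_evalSec p hp, ← c.ofSec_evalSec q hq]
    simp only [heq]

end AbData

end Fermat.Agent.AbVar
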