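import Fermat.Agent.AbVar.Scheme.Generic

/-!
# Coordinates on affine open sets
-/

set_option autoImplicit false

noncomputable section

universe u

open CategoryTheory CategoryTheory.Limits AlgebraicGeometry NeronModelInfra GoodReductionJacobian
open IsLocalRing TopologicalSpace

namespace Fermat.Agent.AbVar

namespace AbData

variable {K : Type u} [Field K] [IsAlgClosed K] (X : AbData K)

theorem genericPoint_mem {U : X.A.Opens} {z : X.A} (hz : z ∈ U) : genericPoint X.A ∈ U :=
  ((genericPoint_spec X.A).specializes trivial).mem_open U.2 hz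

variable {X}

namespace Chart

variable (c : X.Chart)

/-- A section as a rational function. -/
def sec (hne : genericPoint X.A ∈ c.U) : Γ(X.A, c.U) →+* X.Fun :=
  (X.A.presheaf.germ c.U (genericPoint X.A) hne).hom

theorem sec_eq {z : X.A} (hz : z ∈ c.U) (r : Γ(X.A, c.U)) :
    c.sec (X.genericPoint_mem hz) r = X.toFun z (X.A.presheaf.germ c.U z hz r) := by
  exact (TopCat.Presheaf.germ_stalkSpecializes_apply X.A.presheaf hz
    ((genericPoint_spec X.A).specializes trivial) r).symm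

theorem sec_mem {z : X.A} (hz : z ∈ c.U) (hne : genericPoint X.A ∈ c.U) (r : Γ(X.A, c.U)) :
    c.sec hne r ∈ X.loc z :=
  ⟨_, (c.sec_eq hz r).symm⟩

variable {R : Type u} [CommRing R] [Algebra K R] [IsLocalRing R]

/-- Evaluation of the sections on the chart at a point. -/
def evalSec (x : X.Pt R) (hx : X.img x ∈ c.U) : Γ(X.A, c.U) →+* R :=
  (X.stk x).comp (X.A.presheaf.germ c.U (X.img x) hx).hom

omit [IsAlgClosed K] in
theorem evalSec_hom (x : X.Pt R) (hx : X.img x ∈ c.U) (a : K) :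
    c.evalSec x hx (c.hom a) = algebraMap K R a := by
  show X.stk x (X.A.presheaf.germ c.U (X.img x) hx (c.hom a)) = _
  rw [c.germ_hom hx, X.stk_cst]

theorem evalSec_eq (x : X.Pt R) (hx : X.img x ∈ c.U) (r : Γ(X.A, c.U))
    (h : c.sec (X.genericPoint_mem hx) r ∈ X.loc (X.img x)) :
    c.evalSec x hx r = X.ev x ⟨_, h⟩ := by
  rw [X.ev_apply]
  show X.stk x _ = _
  congr 1
  apply X.toFun_injective
  rw [X.toFun_stalkEquiv_symm]
  exact (c.sec_eq hx r).symm

omit [IsLocalRing R] in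
theorem fromSpec_str :
    c.affine.fromSpec ≫ X.str = Spec.map (CommRingCat.ofHom c.hom) := by
  have h : c.affine.fromSpec ≫ X.str = Spec.map (X.str.appLE ⊤ c.U le_top) ≫
      (isAffineOpen_top (Spec (CommRingCat.of K))).fromSpec :=
    (IsAffineOpen.SpecMap_appLE_fromSpec X.str _ c.affine _).symm
  rw [h, IsAffineOpen.fromSpec_top, Scheme.isoSpec_Spec_inv, ← Spec.map_comp]
  congr 1
  ext a
  show X.str.appLE ⊤ c.U le_top ((Scheme.ΓSpecIso (CommRingCat.of K)).inv a) = c.hom a
  rw [c.hom_eq, Scheme.Hom.appLE]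
  rfl

/-- The point given by the values of the sections. -/
def ofSec {S : Type u} [CommRing S] [Algebra K S] (ψ : Γ(X.A, c.U) →+* S)
    (hψ : ∀ a, ψ (c.hom a) = algebraMap K S a) : X.Pt S :=
  ⟨Spec.map (CommRingCat.ofHom ψ) ≫ c.affine.fromSpec, by
    rw [Category.assoc, c.fromSpec_str, ← Spec.map_comp, ← CommRingCat.ofHom_comp]
    exact congrArg (fun φ => Spec.map (CommRingCat.ofHom φ)) (RingHom.ext hψ)⟩

theorem img_ofSec (ψ : Γ(X.A, c.U) →+* R) (hψ : ∀ a, ψ (c.hom a) = algebraMap K R a) :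
    X.img (c.ofSec ψ hψ) ∈ c.U := by
  have : c.affine.fromSpec (Spec.map (CommRingCat.ofHom ψ) (closedPoint (CommRingCat.of R))) ∈
      Set.range c.affine.fromSpec := ⟨_, rfl⟩
  rwa [c.affine.range_fromSpec] at this

theorem ofSec_evalSec (x : X.Pt R) (hx : X.img x ∈ c.U) :
    c.ofSec (c.evalSec x hx) (c.evalSec_hom x hx) = x := by
  refine Pt.ext ?_
  show Spec.map (X.A.presheaf.germ c.U (X.img x) hx ≫ Scheme.stalkClosedPointTo x.hom) ≫
    c.affine.fromSpec = x.hom
  rw [Spec.map_comp, Category.assoc]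
  show _ ≫ c.affine.fromSpecStalk hx = _
  rw [c.affine.fromSpecStalk_eq_fromSpecStalk]
  exact Scheme.Spec_stalkClosedPointTo_fromSpecStalk x.hom

omit [IsLocalRing R] [IsAlgClosed K] in
theorem exists_finset : ∃ G : Finset Γ(X.A, c.U),
    letI := c.algebra; Algebra.adjoin K (G : Set Γ(X.A, c.U)) = ⊤ := by
  let := c.algebra
  have : Algebra.IsStandardSmoothOfRelativeDimension X.dim K Γ(X.A, c.U) := c.smooth
  have : Algebra.IsStandardSmooth K Γ(X.A, c.U) :=
    Algebra.IsStandardSmoothOfRelativeDimension.isStandardSmooth X.dim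
  exact Algebra.FiniteType.out (R := K) (A := Γ(X.A, c.U))

variable {V Ω : Type u} [CommRing V] [IsDomain V] [ValuationRing V] [Algebra K V]
  [Field Ω] [Algebra K Ω] [Algebra V Ω] [IsScalarTower K V Ω] [IsFractionRing V Ω]

omit [IsLocalRing R] in
theorem img_extend_mem (G : Finset Γ(X.A, c.U))
    (hG : letI := c.algebra; Algebra.adjoin K (G : Set Γ(X.A, c.U)) = ⊤) (x : X.Pt Ω)
    (hx : X.img x ∈ c.U) (hmem : ∀ r ∈ G, c.evalSec x hx r ∈ Set.range (algebraMap V Ω)) :
    X.img (X.extend V x) ∈ c.U := by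
  let := c.algebra
  let E : Γ(X.A, c.U) →ₐ[K] Ω := { c.evalSec x hx with commutes' := c.evalSec_hom x hx }
  have hall : ∀ r, E r ∈ (IsScalarTower.toAlgHom K V Ω).range := by
    intro r
    have h : Algebra.adjoin K (G : Set Γ(X.A, c.U)) ≤
        (IsScalarTower.toAlgHom K V Ω).range.comap E :=
      Algebra.adjoin_le fun r hr => hmem r hr
    rw [hG] at h
    exact h trivial
  have hinj : Function.Injective (IsScalarTower.toAlgHom K V Ω) := IsFractionRing.injective V Ω
  let ψ : Γ(X.A, c.U) →ₐ[K] V :=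
    (AlgEquiv.ofInjective (IsScalarTower.toAlgHom K V Ω) hinj).symm.toAlgHom.comp
      (E.codRestrict _ hall)
  have hψ : ∀ r, algebraMap V Ω (ψ r) = E r := fun r =>
    congrArg Subtype.val ((AlgEquiv.ofInjective (IsScalarTower.toAlgHom K V Ω) hinj).apply_symm_apply
      (E.codRestrict _ hall r))
  let y : X.Pt V := c.ofSec ψ.toRingHom ψ.commutes
  have hy : X.map (IsScalarTower.toAlgHom K V Ω) y = x := by
    rw [← c.ofSec_evalSec x hx]
    refine Pt.ext ?_
    show Spec.map _ ≫ Spec.map _ ≫ c.affine.fromSpec = Spec.map _ ≫ c.affine.fromSpec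
    rw [← Category.assoc, ← Spec.map_comp]
    congr 2
    ext r
    exact hψ r
  rw [← hy, X.extend_map]
  exact c.img_ofSec _ _

end Chart

variable (X)

/-- A neighbourhood of a point together with functions testing whether reductions stay in it. -/
theorem exists_nbhd {W : X.A.Opens} {z : X.A} (hz : z ∈ W) :
    ∃ (U : X.A.Opens) (S : Finset X.Fun), z ∈ U ∧ U ≤ W ∧ (∀ h ∈ S, ∀ w ∈ U, h ∈ X.loc w) ∧
      ∀ (V Ω : Type u) [CommRing V] [IsDomain V] [ValuationRing V] [Algebra K V] [Field Ω]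
        [Algebra K Ω] [Algebra V Ω] [IsScalarTower K V Ω] [IsFractionRing V Ω] (x : X.Pt Ω),
        X.img x ∈ U →
        (∀ h ∈ S, ∀ hh : h ∈ X.loc (X.img x), X.ev x ⟨h, hh⟩ ∈ Set.range (algebraMap V Ω)) →
        X.img (X.extend V x) ∈ U := by
  obtain ⟨c, hc⟩ := X.exists_chart z
  obtain ⟨r, hrW, hzr⟩ := c.affine.exists_basicOpen_le (V := W) ⟨z, hz⟩ hc
  obtain ⟨G, hG⟩ := c.exists_finset
  have hne := X.genericPoint_mem hc
  classical
  refine ⟨X.A.basicOpen r, insert (c.sec hne r)⁻¹ (G.image (c.sec hne)), hzr, hrW, ?_, ?_⟩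
  · intro h hh w hw
    have hwU : w ∈ c.U := X.A.basicOpen_le r hw
    rcases Finset.mem_insert.mp hh with rfl | hh
    · have hu : IsUnit (X.A.presheaf.germ c.U w hwU r) := (X.A.mem_basicOpen r w hwU).mp hw
      obtain ⟨v, hv⟩ := isUnit_iff_exists_inv.mp hu
      refine ⟨v, ?_⟩
      show X.toFun w v = _
      refine eq_inv_of_mul_eq_one_left ?_
      rw [c.sec_eq hwU, ← map_mul, mul_comm, hv, map_one]
    · obtain ⟨g, -, rfl⟩ := Finset.mem_image.mp hh
      exact c.sec_mem hwU _ _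
  · intro V Ω _ _ _ _ _ _ _ _ _ x hx hmem
    have hxU : X.img x ∈ c.U := X.A.basicOpen_le r hx
    have hin : X.img (X.extend V x) ∈ c.U := c.img_extend_mem G hG x hxU fun g hg => by
      rw [c.evalSec_eq x hxU g (c.sec_mem hxU _ _)]
      exact hmem _ (Finset.mem_insert_of_mem (Finset.mem_image_of_mem _ hg)) _
    rw [X.A.mem_basicOpen r _ hin]
    by_contra hnu
    have hru : IsUnit (X.A.presheaf.germ c.U (X.img x) hxU r) := (X.A.mem_basicOpen r _ hxU).mp hx
    have hinv : (c.sec hne r)⁻¹ ∈ X.loc (X.img x) := by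
      obtain ⟨v, hv⟩ := isUnit_iff_exists_inv.mp hru
      refine ⟨v, eq_inv_of_mul_eq_one_left ?_⟩
      show X.toFun _ v * _ = 1
      rw [c.sec_eq hxU, ← map_mul, mul_comm, hv, map_one]
    obtain ⟨b, hb⟩ := hmem _ (Finset.mem_insert_self _ _) hinv
    have hr0 : c.sec hne r ≠ 0 := by
      rw [c.sec_eq hxU]
      exact fun h => hru.ne_zero (X.toFun_injective _ (by rw [h, map_zero]))
    have hrV : c.sec hne r ∈ X.loc (X.img (X.extend V x)) := c.sec_mem hin _ _
    have hmap := X.map_extend (V := V) x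
    have hrx : c.sec hne r ∈ X.loc (X.img (X.map (IsScalarTower.toAlgHom K V Ω) (X.extend V x))) :=
      X.mem_loc_map _ _ hrV
    have he := X.ev_map (IsScalarTower.toAlgHom K V Ω) (X.extend V x) hrV hrx
    have hrx' : c.sec hne r ∈ X.loc (X.img x) := c.sec_mem hxU _ _
    have he' : X.ev x ⟨_, hrx'⟩ = algebraMap V Ω (X.ev (X.extend V x) ⟨_, hrV⟩) := by
      refine Eq.trans ?_ he
      congr! <;> exact hmap.symm
    have hone : algebraMap V Ω (b * X.ev (X.extend V x) ⟨_, hrV⟩) = algebraMap V Ω 1 := by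
      rw [map_mul, map_one, hb, ← he', ← map_mul, ← map_one (X.ev x)]
      congr 1
      exact Subtype.ext (inv_mul_cancel₀ hr0)
    have h1 : IsUnit (X.ev (X.extend V x) ⟨_, hrV⟩) :=
      IsUnit.of_mul_eq_one_right _ (IsFractionRing.injective V Ω hone)
    apply hnu
    have h2 := ((X.isUnit_ev_iff _ _).mp h1).map (X.stalkEquiv _).symm
    convert h2 using 1
    apply X.toFun_injective
    rw [X.toFun_stalkEquiv_symm, ← c.sec_eq hin]

end AbData

end Fermat.Agent.AbVar
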