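import Fermat.Agent.AbVar.Scheme.DualPoints

/-!
# The maps `x ↦ n x + a` on formal neighbourhoods
-/

set_option autoImplicit false

noncomputable section

universe u

open CategoryTheory CategoryTheory.Limits AlgebraicGeometry NeronModelInfra GoodReductionJacobian
open IsLocalRing TopologicalSpace
open scoped Classical

namespace Fermat.Agent.AbVar

section Algebra

variable {K : Type u} [Field K] {g : ℕ}

/-- Transport of an expansion. -/
def Expansion.congr {O O' : Type u} [CommRing O] [IsLocalRing O] [Algebra K O] [CommRing O']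
    [IsLocalRing O'] [Algebra K O'] (E : Expansion K O g) (e : O ≃ₐ[K] O') : Expansion K O' g :=
  have hm : ∀ r : O', ∀ M, r ∈ maximalIdeal O' ^ M ↔ e.symm r ∈ maximalIdeal O ^ M := by
    intro r M
    have h : (maximalIdeal O).map (e : O →+* O') = maximalIdeal O' := by
      refine le_antisymm (Ideal.map_le_iff_le_comap.mpr fun x hx => ?_) fun x hx => ?_
      · simpa using hx
      · rw [← e.apply_symm_apply x]
        exact Ideal.mem_map_of_mem _ (by simpa using hx)
    rw [← h, ← Ideal.map_pow, Ideal.mem_map_iff_of_surjective (e : O →+* O') e.surjective]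
    exact ⟨fun ⟨x, hx, he⟩ => by rw [← he]; simpa using hx, fun h => ⟨_, h, by simp⟩⟩
  { σ := E.σ.comp e.symm.toAlgHom
    t := fun i => e (E.t i)
    span_t := by
      ext r
      have h := hm r 1
      rw [pow_one, pow_one, E.span_t] at h
      rw [h, show (Set.range fun i => e (E.t i)) = (e : O →+* O') '' Set.range E.t by
        ext; simp, ← Ideal.map_span, Ideal.mem_map_iff_of_surjective (e : O →+* O') e.surjective]
      exact ⟨fun h => ⟨_, h, by simp⟩, fun ⟨x, hx, he⟩ => by rw [← he]; simpa using hx⟩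
    injective := E.injective.comp e.symm.injective
    σ_t := fun i => by simpa using E.σ_t i
    mem_pow_iff := fun r M => (hm r M).trans (E.mem_pow_iff _ M)
    surj_trunc := fun M φ => by
      obtain ⟨r, hr⟩ := E.surj_trunc M φ
      exact ⟨e r, by simpa using hr⟩ }

variable {O : Type u} [CommRing O] [IsLocalRing O] [Algebra K O]

/-- The truncation of an expansion. -/
def truncL (E : Expansion K O g) (M : ℕ) : O →ₗ[K] {α : Fin g →₀ ℕ // α.degree < M} → K where
  toFun r α := MvPowerSeries.coeff α.1 (E.σ r)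
  map_add' r s := funext fun α => by simp
  map_smul' c r := funext fun α => by simp

theorem truncL_eq_zero_iff (E : Expansion K O g) (M : ℕ) (r : O) :
    truncL E M r = 0 ↔ r ∈ maximalIdeal O ^ M := by
  rw [E.mem_pow_iff]
  exact ⟨fun h α hα => congrFun h ⟨α, hα⟩, fun h => funext fun α => h α.1 α.2⟩

theorem truncL_surjective (E : Expansion K O g) (M : ℕ) : Function.Surjective (truncL E M) := by
  intro v
  obtain ⟨r, hr⟩ := E.surj_trunc M (fun α => if h : α.degree < M then v ⟨α, h⟩ else 0)
  exact ⟨r, funext fun α => ((lowZero_iff_sub.mp hr) α.1 α.2).trans (dif_pos α.2)⟩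

/-- The linear coefficient, in a direction. -/
def linCoeff (v : Fin g → K) (p : MvPowerSeries (Fin g) K) : K :=
  ∑ j, v j * MvPowerSeries.coeff (Finsupp.single j 1) p

theorem linCoeff_mul (v : Fin g → K) (p q : MvPowerSeries (Fin g) K) :
    linCoeff v (p * q) = MvPowerSeries.constantCoeff p * linCoeff v q +
      MvPowerSeries.constantCoeff q * linCoeff v p := by
  simp only [linCoeff, Finset.mul_sum, ← Finset.sum_add_distrib]
  refine Finset.sum_congr rfl fun j _ => ?_
  rw [MvPowerSeries.coeff_mul, Finsupp.antidiagonal_single, Finset.sum_map]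
  rw [show Finset.HasAntidiagonal.antidiagonal 1 = {((0 : ℕ), 1), (1, 0)} from rfl]
  simp
  ring

/-- The tangent vector attached to a direction. -/
def tangentHom (E : Expansion K O g) (v : Fin g → K) : O →ₐ[K] Dual K K where
  toFun r := TrivSqZeroExt.inl (MvPowerSeries.constantCoeff (E.σ r)) +
    TrivSqZeroExt.inr (linCoeff v (E.σ r))
  map_one' := by
    refine TrivSqZeroExt.ext (by simp) ?_
    simp [linCoeff, MvPowerSeries.coeff_one]
  map_mul' a b := by
    refine TrivSqZeroExt.ext (by simp) ?_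
    simp [linCoeff_mul, MulOpposite.smul_eq_mul_unop, mul_comm]
  map_zero' := by simp [linCoeff]
  map_add' a b := by
    refine TrivSqZeroExt.ext (by simp) ?_
    simp [linCoeff, mul_add, Finset.sum_add_distrib]
  commutes' c := by
    refine TrivSqZeroExt.ext ?_ ?_
    · simp [TrivSqZeroExt.algebraMap_eq_inl, MvPowerSeries.algebraMap_apply]
    · simp [TrivSqZeroExt.algebraMap_eq_inl, linCoeff, MvPowerSeries.algebraMap_apply,
        MvPowerSeries.coeff_C]

theorem fst_tangentHom (E : Expansion K O g) (v : Fin g → K) (r : O) :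
    (tangentHom E v r).fst = MvPowerSeries.constantCoeff (E.σ r) := by simp [tangentHom]

theorem snd_tangentHom (E : Expansion K O g) (v : Fin g → K) (r : O) :
    (tangentHom E v r).snd = linCoeff v (E.σ r) := by simp [tangentHom]

theorem mem_maximalIdeal_iff_σ (E : Expansion K O g) (r : O) :
    r ∈ maximalIdeal O ↔ MvPowerSeries.constantCoeff (E.σ r) = 0 := by
  rw [← pow_one (maximalIdeal O), E.mem_pow_iff, ← MvPowerSeries.coeff_zero_eq_constantCoeff]
  exact ⟨fun h => h 0 (by simp), fun h α hα => by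
    rw [show α = 0 from (Finsupp.degree_eq_zero_iff α).mp (by omega)]; exact h⟩

end Algebra

namespace AbData

section

variable {K : Type u} [Field K] [IsAlgClosed K] (X : AbData K) {R : Type u} [CommRing R]
  [Algebra K R] [IsLocalRing R]

theorem mem_loc_congr {z w : X.A} (e : z = w) {h : X.Fun} (hh : h ∈ X.loc z) : h ∈ X.loc w := by
  subst e; exact hh

theorem ev_congr {x y : X.Pt R} (e : x = y) {h : X.Fun} (hh : h ∈ X.loc (X.img x))
    (hh' : h ∈ X.loc (X.img y)) : X.ev x ⟨h, hh⟩ = X.ev y ⟨h, hh'⟩ := by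
  subst e; rfl

end

variable {K : Type u} [Field K] [IsAlgClosed K] (X : AbData K)

theorem nonempty_expansion_loc (p : X.Pt K) :
    Nonempty (Expansion K (X.loc (X.img p)) X.dim) := by
  let := (X.cst (X.img p)).toAlgebra
  obtain ⟨E⟩ := X.nonempty_expansion_stalk p
  exact ⟨E.congr (AlgEquiv.ofRingEquiv (f := X.stalkEquiv (X.img p)) fun a =>
    Subtype.ext (X.toFun_cst _ a))⟩

/-- The constant coefficient is the value at the point. -/
theorem constantCoeff_σ (p : X.Pt K) (E : Expansion K (X.loc (X.img p)) X.dim)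
    (r : X.loc (X.img p)) : MvPowerSeries.constantCoeff (E.σ r) = X.ev p r := by
  have h : r - algebraMap K _ (X.ev p r) ∈ maximalIdeal (X.loc (X.img p)) := by
    rw [mem_maximalIdeal, mem_nonunits_iff]
    intro hu
    have := ((X.isUnit_ev_iff p _).mpr hu).ne_zero
    simp at this
  rw [mem_maximalIdeal_iff_σ E, map_sub, map_sub, AlgHom.commutes,
    MvPowerSeries.algebraMap_apply] at h
  simpa [sub_eq_zero] using h

theorem img_act_locPt (n : ℕ) (a p : X.Pt K) :
    X.img (X.act n a (X.locPt (X.img p))) = X.img (X.act n a p) := by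
  have hloc : IsLocalHom (X.ev p).toRingHom := ⟨fun h hu => (X.isUnit_ev_iff p h).mp hu⟩
  conv_rhs => rw [← X.eq_map_locPt p, ← map_act, img_map_of_isLocalHom]

/-- The pullback of functions by `x ↦ n x + a` at a rational point. -/
def pull (n : ℕ) (a p : X.Pt K) :
    X.loc (X.img (X.act n a p)) →ₐ[K] X.loc (X.img p) :=
  (X.ev (X.act n a (X.locPt (X.img p)))).comp
    (Subalgebra.inclusion (le_of_eq (by rw [X.img_act_locPt n a p])))

theorem pull_mem (n : ℕ) (a p : X.Pt K) (h : X.loc (X.img (X.act n a p))) :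
    (h : X.Fun) ∈ X.loc (X.img (X.act n a X.genPt)) := by
  rw [← X.map_val_locPt (X.img p), ← map_act]
  exact X.mem_loc_map _ _ (X.mem_loc_congr (X.img_act_locPt n a p).symm h.2)

theorem coe_pull (n : ℕ) (a p : X.Pt K) (h : X.loc (X.img (X.act n a p))) :
    (X.pull n a p h : X.Fun) = X.ev (X.act n a X.genPt) ⟨h, X.pull_mem n a p h⟩ := by
  have e : X.map (X.loc (X.img p)).val (X.act n a (X.locPt (X.img p))) = X.act n a X.genPt := by
    rw [map_act, map_val_locPt]
  have := X.ev_map (X.loc (X.img p)).val (X.act n a (X.locPt (X.img p)))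
    (h := (h : X.Fun)) (X.mem_loc_congr (X.img_act_locPt n a p).symm h.2)
    (X.mem_loc_congr (congrArg X.img e).symm (X.pull_mem n a p h))
  exact this.symm.trans (X.ev_congr e _ _)

theorem ev_pull (n : ℕ) (a p : X.Pt K) (h : X.loc (X.img (X.act n a p))) :
    X.ev p (X.pull n a p h) = X.ev (X.act n a p) h := by
  have hh : (h : X.Fun) ∈ X.loc (X.img (X.act n a (X.locPt (X.img p)))) :=
    X.mem_loc_congr (X.img_act_locPt n a p).symm h.2
  have hx : X.map (X.ev p) (X.act n a (X.locPt (X.img p))) = X.act n a p := by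
    rw [map_act, eq_map_locPt]
  have := X.ev_map (X.ev p) (X.act n a (X.locPt (X.img p))) hh
    (X.mem_loc_congr (congrArg X.img hx).symm h.2)
  exact this.symm.trans (X.ev_congr hx _ h.2)

theorem pull_mem_maximalIdeal (n : ℕ) (a p : X.Pt K) {h : X.loc (X.img (X.act n a p))}
    (hh : h ∈ maximalIdeal _) : X.pull n a p h ∈ maximalIdeal (X.loc (X.img p)) := by
  rw [mem_maximalIdeal, mem_nonunits_iff] at hh ⊢
  rwa [← X.isUnit_ev_iff, ev_pull, X.isUnit_ev_iff]

variable {n : ℕ}

theorem maximalIdeal_eq_map_pull (hn : (n : K) ≠ 0) (a p : X.Pt K) :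
    maximalIdeal (X.loc (X.img p)) =
      (maximalIdeal (X.loc (X.img (X.act n a p)))).map (X.pull n a p) := by
  obtain ⟨Ep⟩ := X.nonempty_expansion_loc p
  obtain ⟨Eq'⟩ := X.nonempty_expansion_loc (X.act n a p)
  have hle : (maximalIdeal (X.loc (X.img (X.act n a p)))).map (X.pull n a p) ≤
      maximalIdeal (X.loc (X.img p)) :=
    Ideal.map_le_iff_le_comap.mpr fun h hh => X.pull_mem_maximalIdeal n a p hh
  let J : Matrix (Fin X.dim) (Fin X.dim) K := Matrix.of fun j i =>
    MvPowerSeries.coeff (Finsupp.single j 1) (Ep.σ (X.pull n a p (Eq'.t i)))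
  have hJ : IsUnit J := by
    rw [← Matrix.vecMul_injective_iff_isUnit, ← Matrix.coe_vecMulLinear,
      injective_iff_map_eq_zero]
    intro v hv
    replace hv : ∀ i, linCoeff v (Ep.σ (X.pull n a p (Eq'.t i))) = 0 := fun i => congrFun hv i
    have hloc : IsLocalHom (tangentHom Ep v).toRingHom := ⟨fun r hr => by
      have h := isUnit_dual_iff.mp hr
      rw [show (tangentHom Ep v).toRingHom r = tangentHom Ep v r from rfl, fst_tangentHom] at h
      by_contra hu
      exact h ((mem_maximalIdeal_iff_σ Ep r).mp hu)⟩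
    let w : X.Pt (Dual K K) := X.map (tangentHom Ep v) (X.locPt (X.img p))
    have hw0 : X.map fstA w = p := by
      conv_rhs => rw [← X.eq_map_locPt p]
      rw [map_map]
      exact X.map_congr (fun r => (fst_tangentHom Ep v r).trans (X.constantCoeff_σ p Ep r)) _
    have hq : X.map fstA (X.act n a w) = X.act n a p := by rw [map_act, hw0]
    have hwa : X.act n a w = X.const _ (X.act n a p) := by
      refine X.dual_ext (by rw [hq, map_const, const_self]) fun h hh hh' => ?_
      have hiq : X.img (X.act n a w) = X.img (X.act n a p) := by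
        rw [← X.img_map_of_isLocalHom fstA, hq]
      have hhq : h ∈ X.loc (X.img (X.act n a p)) := hiq ▸ hh
      have e1 : X.ev (X.act n a w) ⟨h, hh⟩ = tangentHom Ep v (X.pull n a p ⟨h, hhq⟩) := by
        have hP : h ∈ X.loc (X.img (X.act n a (X.locPt (X.img p)))) :=
          X.mem_loc_congr (X.img_act_locPt n a p).symm hhq
        have e := X.ev_map (tangentHom Ep v) (X.act n a (X.locPt (X.img p))) hP
          (X.mem_loc_map _ _ hP)
        exact (X.ev_congr (X.map_act n a _ _).symm _ _).trans e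
      have e2 : X.ev (X.const (Dual K K) (X.act n a p)) ⟨h, hh'⟩ =
          algebraMap K _ (X.ev (X.act n a p) ⟨h, hhq⟩) :=
        X.ev_map (Algebra.ofId K (Dual K K)) (X.act n a p) hhq hh'
      rw [e1, e2, snd_tangentHom]
      simp only [TrivSqZeroExt.algebraMap_eq_inl, TrivSqZeroExt.snd_inl]
      let L : X.loc (X.img (X.act n a p)) → K := fun r => linCoeff v (Ep.σ (X.pull n a p r))
      show L ⟨h, hhq⟩ = 0
      have hLm : ∀ r ∈ maximalIdeal (X.loc (X.img (X.act n a p))), L r = 0 := by
        intro r hr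
        rw [Eq'.span_t] at hr
        obtain ⟨c, rfl⟩ := Ideal.mem_span_range_iff_exists_fun.mp hr
        simp only [L, map_sum, map_mul]
        rw [linCoeff]
        simp only [map_sum, Finset.mul_sum]
        rw [Finset.sum_comm]
        refine Finset.sum_eq_zero fun i _ => ?_
        have h0 : MvPowerSeries.constantCoeff (Ep.σ (X.pull n a p (Eq'.t i))) = 0 :=
          (mem_maximalIdeal_iff_σ Ep _).mp (X.pull_mem_maximalIdeal n a p
            (by rw [Eq'.span_t]; exact Ideal.subset_span ⟨i, rfl⟩))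
        have := linCoeff_mul v (Ep.σ (X.pull n a p (c i))) (Ep.σ (X.pull n a p (Eq'.t i)))
        rw [h0, zero_mul, add_zero, hv, mul_zero] at this
        exact this
      set r : X.loc (X.img (X.act n a p)) := ⟨h, hhq⟩
      set c := X.ev (X.act n a p) r
      have hsub : r - algebraMap K _ c ∈ maximalIdeal _ := by
        rw [mem_maximalIdeal, mem_nonunits_iff, ← X.isUnit_ev_iff]
        simp [c]
      have := hLm _ hsub
      simp only [L, map_sub, AlgHom.commutes] at this ⊢
      have hc : linCoeff v (algebraMap K (MvPowerSeries (Fin X.dim) K) c) = 0 := by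
        simp [linCoeff, MvPowerSeries.algebraMap_apply, MvPowerSeries.coeff_C]
      rw [linCoeff] at this hc ⊢
      simp only [map_sub, mul_sub, Finset.sum_sub_distrib] at this
      rwa [hc, sub_zero] at this
    have hz : n • (w - X.const _ p) = 0 := by
      have e1 : n • w + X.const _ a = n • X.const (Dual K K) p + X.const _ a := by
        have := hwa
        rw [act, act, const_self, map_add, map_nsmul] at this
        exact this
      rw [nsmul_sub, sub_eq_zero]
      exact add_right_cancel e1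
    have hv0 : X.map fstA (w - X.const _ p) = 0 := by
      rw [map_sub, hw0, map_const, const_self, sub_self]
    have hwp : w = X.const _ p := sub_eq_zero.mp (X.eq_zero_of_nsmul _ hv0 hn hz)
    funext j
    have hh : (Ep.t j : X.Fun) ∈ X.loc (X.img (X.locPt (X.img p))) := by
      rw [img_locPt]; exact (Ep.t j).2
    have h1 := X.ev_map (tangentHom Ep v) (X.locPt (X.img p)) hh (X.mem_loc_map _ _ hh)
    have h2 := X.ev_map (Algebra.ofId K (Dual K K)) p (Ep.t j).2 (X.mem_loc_map _ _ (Ep.t j).2)
    have h3 : tangentHom Ep v (X.ev (X.locPt (X.img p)) ⟨_, hh⟩) =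
        algebraMap K _ (X.ev p ⟨_, (Ep.t j).2⟩) := by
      rw [← h1]
      exact (X.ev_congr hwp _ _).trans h2
    rw [X.ev_locPt _ (Ep.t j).2] at h3
    have h4 := congrArg TrivSqZeroExt.snd h3
    rw [snd_tangentHom] at h4
    have hcoef : ∀ i, MvPowerSeries.coeff (Finsupp.single i 1) (Ep.σ ⟨_, (Ep.t j).2⟩) =
        if i = j then 1 else 0 := fun i => by
      rw [lowZero_iff_sub.mp (Ep.σ_t j) _ (by simp [Finsupp.degree_single])]
      rw [MvPowerSeries.coeff_X]
      simp [Finsupp.single_eq_single_iff]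
    simp only [linCoeff, hcoef] at h4
    simpa [TrivSqZeroExt.algebraMap_eq_inl] using h4
  have := X.isNoetherian
  have : IsNoetherianRing (X.loc (X.img p)) :=
    isNoetherianRing_of_ringEquiv _ (X.stalkEquiv (X.img p))
  refine le_antisymm ?_ hle
  refine Submodule.le_of_le_smul_of_le_jacobson_bot (IsNoetherian.noetherian _)
    (IsLocalRing.jacobson_eq_maximalIdeal (⊥ : Ideal _) bot_ne_top).ge ?_
  conv_lhs => rw [Ep.span_t]
  rw [Ideal.span_le]
  rintro _ ⟨j, rfl⟩
  let b : Fin X.dim → K := fun i => J⁻¹ i j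
  let s := ∑ i, algebraMap K _ (b i) * X.pull n a p (Eq'.t i)
  have hs : s ∈ (maximalIdeal (X.loc (X.img (X.act n a p)))).map (X.pull n a p) :=
    Ideal.sum_mem _ fun i _ => Ideal.mul_mem_left _ _ (Ideal.mem_map_of_mem _
      (by rw [Eq'.span_t]; exact Ideal.subset_span ⟨i, rfl⟩))
  have hd : Ep.t j - s ∈ maximalIdeal (X.loc (X.img p)) ^ 2 := by
    rw [Ep.mem_pow_iff, map_sub]
    intro α hα
    rw [map_sub, lowZero_iff_sub.mp (Ep.σ_t j) α hα, map_sum, map_sum]
    simp only [map_mul, AlgHom.commutes, MvPowerSeries.algebraMap_apply, MvPowerSeries.coeff_C_mul,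
      Algebra.algebraMap_self, RingHom.id_apply]
    rcases Nat.eq_zero_or_pos α.degree with h0 | h1
    · have hα0 : α = 0 := (Finsupp.degree_eq_zero_iff α).mp h0
      subst hα0
      have h00 : ∀ i, MvPowerSeries.coeff 0 (Ep.σ (X.pull n a p (Eq'.t i))) = 0 := fun i => by
        rw [MvPowerSeries.coeff_zero_eq_constantCoeff]
        exact (mem_maximalIdeal_iff_σ Ep _).mp (X.pull_mem_maximalIdeal n a p
          (by rw [Eq'.span_t]; exact Ideal.subset_span ⟨i, rfl⟩))
      have hne : (0 : Fin X.dim →₀ ℕ) ≠ Finsupp.single j 1 := fun h => by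
        simpa using congrArg (fun f => f j) h
      simp [h00, MvPowerSeries.coeff_X, hne]
    · obtain ⟨l, rfl⟩ : ∃ l, α = Finsupp.single l 1 := by
        obtain ⟨l, hl⟩ : ∃ l, α l ≠ 0 := by
          by_contra! h
          rw [show α = 0 from Finsupp.ext h] at h1
          simp at h1
        obtain ⟨β, rfl⟩ : ∃ β, α = Finsupp.single l 1 + β :=
          ⟨α - Finsupp.single l 1, by
            rw [add_tsub_cancel_of_le (Finsupp.single_le_iff.mpr (by omega))]⟩
        refine ⟨l, ?_⟩
        rw [map_add, Finsupp.degree_single] at hα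
        rw [(Finsupp.degree_eq_zero_iff β).mp (by omega), add_zero]
      have hJl := congrFun (congrFun (Matrix.mul_nonsing_inv J ((Matrix.isUnit_iff_isUnit_det J).mp hJ)) l) j
      rw [Matrix.mul_apply, Matrix.one_apply] at hJl
      rw [MvPowerSeries.coeff_X]
      simp only [Finsupp.single_eq_single_iff, and_true, one_ne_zero, and_self, or_false]
      rw [sub_eq_zero, ← hJl]
      exact Finset.sum_congr rfl fun i _ => mul_comm _ _
  have hsm : maximalIdeal (X.loc (X.img p)) ^ 2 =
      maximalIdeal (X.loc (X.img p)) • maximalIdeal (X.loc (X.img p)) := sq _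
  exact Submodule.mem_sup.mpr ⟨s, hs, _, hsm ▸ hd, add_sub_cancel _ _⟩

/-- Modulo any power of the maximal ideal, every function is a pullback. -/
theorem exists_pull_sub_mem (hn : (n : K) ≠ 0) (a p : X.Pt K) (M : ℕ)
    (r : X.loc (X.img p)) : ∃ h, r - X.pull n a p h ∈ maximalIdeal (X.loc (X.img p)) ^ M := by
  induction M generalizing r with
  | zero => exact ⟨0, by simp⟩
  | succ M ih =>
    obtain ⟨h, hh⟩ := ih r
    suffices ∀ x ∈ maximalIdeal (X.loc (X.img p)) ^ M,
        ∃ y, x - X.pull n a p y ∈ maximalIdeal (X.loc (X.img p)) ^ (M + 1) by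
      obtain ⟨y, hy⟩ := this _ hh
      exact ⟨h + y, by rwa [map_add, ← sub_sub]⟩
    intro x hx
    rw [X.maximalIdeal_eq_map_pull hn a p, ← Ideal.map_pow] at hx
    refine Submodule.span_induction ?_ ⟨0, by simp⟩ ?_ ?_ hx
    · rintro _ ⟨y, -, rfl⟩; exact ⟨y, by simp⟩
    · rintro x y _ _ ⟨x', hx'⟩ ⟨y', hy'⟩
      exact ⟨x' + y', by rw [map_add, add_sub_add_comm]; exact add_mem hx' hy'⟩
    · rintro c x hxmem ⟨y, hy⟩
      refine ⟨algebraMap K _ (X.ev p c) * y, ?_⟩
      rw [map_mul, AlgHom.commutes, smul_eq_mul]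
      have hc : c - algebraMap K _ (X.ev p c) ∈ maximalIdeal (X.loc (X.img p)) := by
        rw [mem_maximalIdeal, mem_nonunits_iff, ← X.isUnit_ev_iff]; simp
      have hx' : x ∈ maximalIdeal (X.loc (X.img p)) ^ M := by
        rw [X.maximalIdeal_eq_map_pull hn a p, ← Ideal.map_pow]; exact hxmem
      have e : c * x - algebraMap K _ (X.ev p c) * X.pull n a p y =
          (c - algebraMap K _ (X.ev p c)) * x +
            algebraMap K _ (X.ev p c) * (x - X.pull n a p y) := by ring
      rw [e]
      exact add_mem (by rw [pow_succ']; exact Submodule.mul_mem_mul hc hx')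
        (Ideal.mul_mem_left _ _ hy)

theorem pull_mem_pow_iff (hn : (n : K) ≠ 0) (a p : X.Pt K) (M : ℕ)
    (h : X.loc (X.img (X.act n a p))) :
    X.pull n a p h ∈ maximalIdeal _ ^ M ↔ h ∈ maximalIdeal _ ^ M := by
  obtain ⟨Ep⟩ := X.nonempty_expansion_loc p
  obtain ⟨Eq'⟩ := X.nonempty_expansion_loc (X.act n a p)
  have hfwd : ∀ r ∈ maximalIdeal (X.loc (X.img (X.act n a p))) ^ M,
      X.pull n a p r ∈ maximalIdeal (X.loc (X.img p)) ^ M := fun r hr => by
    rw [X.maximalIdeal_eq_map_pull hn a p, ← Ideal.map_pow]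
    exact Ideal.mem_map_of_mem _ hr
  refine ⟨fun hp => ?_, hfwd h⟩
  have : Finite {α : Fin X.dim →₀ ℕ // α.degree < M} :=
    ((Finsupp.finite_of_degree_le (σ := Fin X.dim) M).subset
      (fun α (hα : α.degree < M) => le_of_lt hα) : {α : Fin X.dim →₀ ℕ | α.degree < M}.Finite).to_subtype
  let L := (truncL Ep M).comp (X.pull n a p).toLinearMap
  obtain ⟨s, hs⟩ := (truncL Eq' M).exists_rightInverse_of_surjective
    (LinearMap.range_eq_top.mpr (truncL_surjective Eq' M))
  have hfact : ∀ r, L r = L (s (truncL Eq' M r)) := fun r => by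
    have h0 : truncL Eq' M (r - s (truncL Eq' M r)) = 0 := by
      rw [map_sub, ← LinearMap.comp_apply (truncL Eq' M) s, hs, LinearMap.id_apply, sub_self]
    have h1 := (truncL_eq_zero_iff Ep M _).mpr (hfwd _ ((truncL_eq_zero_iff Eq' M _).mp h0))
    exact sub_eq_zero.mp (by rw [← map_sub]; exact h1)
  have hTs : Function.Surjective (L.comp s) := by
    intro v
    obtain ⟨r, rfl⟩ := truncL_surjective Ep M v
    obtain ⟨y, hy⟩ := X.exists_pull_sub_mem hn a p M r
    refine ⟨truncL Eq' M y, (hfact y).symm.trans ?_⟩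
    have := (truncL_eq_zero_iff Ep M _).mpr hy
    rw [map_sub, sub_eq_zero] at this
    exact this.symm
  have hTi := LinearMap.injective_iff_surjective.mpr hTs
  rw [← truncL_eq_zero_iff Eq' M]
  refine hTi ?_
  rw [map_zero]
  show L (s (truncL Eq' M h)) = 0
  rw [← hfact]
  exact (truncL_eq_zero_iff Ep M _).mpr hp

theorem pull_injective (hn : (n : K) ≠ 0) (a p : X.Pt K) :
    Function.Injective (X.pull n a p) := by
  obtain ⟨Eq'⟩ := X.nonempty_expansion_loc (X.act n a p)
  refine (injective_iff_map_eq_zero _).mpr fun h hh => Eq'.injective ?_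
  rw [map_zero]
  ext α
  exact (Eq'.mem_pow_iff h (α.degree + 1)).mp
    ((X.pull_mem_pow_iff hn a p _ h).mp (by rw [hh]; exact zero_mem _)) α (by omega)

/-- `x ↦ n x + a` is dominant. -/
theorem img_act_genPt (hn : (n : K) ≠ 0) (a : X.Pt K) :
    X.img (X.act n a X.genPt) = genericPoint X.A := by
  refine X.img_eq_genericPoint _ fun h hh h0 => ?_
  obtain ⟨c, d, hd, hcd⟩ :=
    IsFractionRing.div_surjective (A := X.A.presheaf.stalk (X.img (X.act n a (0 : X.Pt K)))) h
  let C : X.loc (X.img (X.act n a 0)) := ⟨X.toFun _ c, c, rfl⟩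
  let D : X.loc (X.img (X.act n a 0)) := ⟨X.toFun _ d, d, rfl⟩
  have hD : (D : X.Fun) ≠ 0 := fun hd0 =>
    nonZeroDivisors.ne_zero hd (X.toFun_injective _ (by rw [map_zero]; exact hd0))
  have hm : h * (D : X.Fun) = C := by rw [← hcd]; exact div_mul_cancel₀ _ hD
  have h1 : X.ev (X.act n a X.genPt) ⟨h, hh⟩ * X.ev (X.act n a X.genPt) ⟨D, X.pull_mem n a 0 D⟩ =
      X.ev (X.act n a X.genPt) ⟨C, X.pull_mem n a 0 C⟩ := by
    rw [← map_mul]; congr 1; exact Subtype.ext hm
  rw [h0, zero_mul, ← X.coe_pull n a 0 C] at h1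
  have hC : C = 0 := X.pull_injective hn a 0 (by rw [map_zero]; exact Subtype.ext h1.symm)
  rw [hC] at hm
  exact (mul_eq_zero.mp hm).resolve_right hD

theorem map_inclusion_locPt {z w : X.A} (h : z ⤳ w) :
    X.map (Subalgebra.inclusion (X.loc_le_of_specializes h)) (X.locPt w) = X.locPt z := by
  refine Pt.ext ?_
  show Spec.map _ ≫ Spec.map _ ≫ X.A.fromSpecStalk w = Spec.map _ ≫ X.A.fromSpecStalk z
  rw [← Scheme.SpecMap_stalkSpecializes_fromSpecStalk h, ← Category.assoc, ← Spec.map_comp,
    ← Category.assoc, ← Spec.map_comp]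
  congr 2
  ext s
  exact (X.toFun_stalkSpecializes h s).symm

omit [IsAlgClosed K] in
theorem img_const {Ω : Type u} [Field Ω] [Algebra K Ω] (a : X.Pt K) :
    X.img (X.const Ω a) = X.img a := by
  have : IsLocalHom (Algebra.ofId K Ω).toRingHom :=
    ⟨fun r hr => isUnit_iff_ne_zero.mpr fun h => hr.ne_zero (by rw [h, map_zero])⟩
  exact X.img_map_of_isLocalHom _ a

/-- Torsion points are rational. -/
theorem exists_const_of_nsmul_eq_zero (hn : (n : K) ≠ 0) {Ω : Type u} [Field Ω] [Algebra K Ω]
    (x : X.Pt Ω) (hx : n • x = 0) : ∃ p : X.Pt K, n • p = 0 ∧ x = X.const Ω p := by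
  obtain ⟨p, -, hzp⟩ := X.exists_pt_specializes (U := ⊤) (z := X.img x) trivial
  let e : X.loc (X.img p) →ₐ[K] Ω :=
    (X.ev x).comp (Subalgebra.inclusion (X.loc_le_of_specializes hzp))
  have hxe : X.map e (X.locPt (X.img p)) = x := by
    rw [← map_map, X.map_inclusion_locPt hzp, eq_map_locPt]
  have he0 : X.map e (X.act n 0 (X.locPt (X.img p))) = 0 := by
    rw [map_act, hxe, act, hx, map_zero, add_zero]
  have hsp := X.img_map_specializes e (X.act n 0 (X.locPt (X.img p)))
  rw [he0, img_act_locPt] at hsp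
  have h00 : (0 : X.Pt Ω) = X.const Ω 0 := (map_zero _).symm
  rw [h00, img_const] at hsp
  have himg : X.img (X.act n 0 p) = X.img (0 : X.Pt K) := by
    have hmem := specializes_iff_mem_closure.mp hsp
    rwa [(X.isClosed_img 0).closure_eq, Set.mem_singleton_iff] at hmem
  have hp0 : X.act n 0 p = 0 := X.pt_eq_of_img himg
  have hpn : n • p = 0 := by simpa [act] using hp0
  refine ⟨p, hpn, ?_⟩
  have hker : ∀ r ∈ maximalIdeal (X.loc (X.img (X.act n 0 p))), e (X.pull n 0 p r) = 0 := by
    intro r hr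
    have hP : (r : X.Fun) ∈ X.loc (X.img (X.act n 0 (X.locPt (X.img p)))) :=
      X.mem_loc_congr (X.img_act_locPt n 0 p).symm r.2
    have e1 := X.ev_map e (X.act n 0 (X.locPt (X.img p))) hP (X.mem_loc_map _ _ hP)
    have hr0 : (r : X.Fun) ∈ X.loc (X.img (0 : X.Pt K)) := X.mem_loc_congr himg r.2
    have e2 := X.ev_map (Algebra.ofId K Ω) (0 : X.Pt K) hr0 (X.mem_loc_map _ _ hr0)
    have hev : X.ev (0 : X.Pt K) ⟨r, hr0⟩ = 0 := by
      by_contra hne
      have h1 : IsUnit (X.ev (X.act n 0 p) r) := by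
        rw [show X.ev (X.act n 0 p) r = X.ev (0 : X.Pt K) ⟨r, hr0⟩ from X.ev_congr hp0 r.2 hr0]
        exact isUnit_iff_ne_zero.mpr hne
      exact (mem_maximalIdeal _).mp hr ((X.isUnit_ev_iff _ _).mp h1)
    have e3 : X.ev (X.map e (X.act n 0 (X.locPt (X.img p)))) ⟨r, X.mem_loc_map _ _ hP⟩ =
        X.ev (X.map (Algebra.ofId K Ω) (0 : X.Pt K)) ⟨r, X.mem_loc_map _ _ hr0⟩ := by
      exact X.ev_congr (he0.trans (map_zero _).symm) _ _
    rw [e1, e2, hev, map_zero] at e3
    exact e3
  have hm : maximalIdeal (X.loc (X.img p)) ≤ RingHom.ker e := by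
    rw [X.maximalIdeal_eq_map_pull hn 0 p, Ideal.map_le_iff_le_comap]
    exact hker
  rw [← hxe, show X.const Ω p = X.map (Algebra.ofId K Ω) p from rfl]
  conv_rhs => rw [← X.eq_map_locPt p, map_map]
  refine X.map_congr (fun r => ?_) _
  have hc : r - algebraMap K _ (X.ev p r) ∈ RingHom.ker e := hm (by
    rw [mem_maximalIdeal, mem_nonunits_iff, ← X.isUnit_ev_iff]; simp)
  rw [RingHom.mem_ker, map_sub, AlgHom.commutes, sub_eq_zero] at hc
  exact hc

end AbData

end Fermat.Agent.AbVar
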