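import Fermat.Agent.AbVar.Scheme.Points
import Fermat.Agent.AbVar.LocalAlg.SmoothPoint

/-!
# Smooth charts at rational points, integrality of an abelian scheme
-/

set_option autoImplicit false

noncomputable section

universe u

open CategoryTheory CategoryTheory.Limits AlgebraicGeometry NeronModelInfra GoodReductionJacobian
open IsLocalRing TopologicalSpace

namespace Fermat.Agent.AbVar

namespace AbData

variable {K : Type u} [Field K] [IsAlgClosed K] (X : AbData K)

omit [IsAlgClosed K] in
theorem specStr_self : specStr K K = 𝟙 (Spec (CommRingCat.of K)) := by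
  rw [specStr, Algebra.algebraMap_self, CommRingCat.ofHom_id, Spec.map_id]

omit [IsAlgClosed K] in
theorem isProper : IsProper X.str := X.bundle.proper

omit [IsAlgClosed K] in
theorem locallyOfFiniteType : LocallyOfFiniteType X.str :=
  have := X.isProper; inferInstance

omit [IsAlgClosed K] in
instance : JacobsonSpace X.A :=
  have := X.locallyOfFiniteType
  LocallyOfFiniteType.jacobsonSpace X.str

omit [IsAlgClosed K] in
instance : CompactSpace X.A :=
  have := X.isProper
  QuasiCompact.compactSpace_of_compactSpace X.str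

omit [IsAlgClosed K] in
theorem isNoetherian : IsNoetherian X.A :=
  have := X.locallyOfFiniteType
  have : IsLocallyNoetherian X.A := LocallyOfFiniteType.isLocallyNoetherian X.str
  AlgebraicGeometry.IsNoetherian.mk

/-- The rational point at a closed point. -/
theorem exists_pt_of_isClosed {z : X.A} (hz : IsClosed {z}) : ∃ p : X.Pt K, X.img p = z := by
  have := X.locallyOfFiniteType
  exact ⟨⟨pointOfClosedPoint X.str z hz, by rw [pointOfClosedPoint_comp, specStr_self]⟩,
    pointOfClosedPoint_apply _ _ _ _⟩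

theorem isClosed_img (p : X.Pt K) : IsClosed {X.img p} := by
  have := X.locallyOfFiniteType
  exact ((pointEquivClosedPoint X.str) ⟨p.hom, by rw [p.hom_str, specStr_self]⟩).2

/-- Rational points are determined by their image. -/
theorem pt_eq_of_img {p q : X.Pt K} (h : X.img p = X.img q) : p = q := by
  have := X.locallyOfFiniteType
  exact Pt.ext (ext_of_apply_closedPoint_eq X.str (by rw [p.hom_str, specStr_self])
    (by rw [q.hom_str, specStr_self]) h)

/-- An affine chart which is standard smooth over `K`. -/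
structure Chart where
  U : X.A.Opens
  affine : IsAffineOpen U
  hom : K →+* Γ(X.A, U)
  hom_eq : ∀ a, hom a = X.A.presheaf.map (homOfLE le_top).op
    (X.str.appTop ((Scheme.ΓSpecIso (CommRingCat.of K)).inv a))
  smooth : hom.IsStandardSmoothOfRelativeDimension X.dim

omit [IsAlgClosed K] in
theorem exists_chart (z : X.A) : ∃ c : X.Chart, z ∈ c.U := by
  obtain ⟨W, hW, V, hV, hzV, e, hs⟩ := X.smooth.exists_isStandardSmoothOfRelativeDimension z
  have hWtop : W = ⊤ := by
    ext w
    simp only [Opens.coe_top, Set.mem_univ, iff_true, SetLike.mem_coe]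
    have hw : X.str z ∈ W := e hzV
    rwa [Subsingleton.elim w (X.str z)]
  subst hWtop
  let φ : K →+* Γ(Spec (CommRingCat.of K), ⊤) :=
    (Scheme.ΓSpecIso (CommRingCat.of K)).symm.commRingCatIsoToRingEquiv.toRingHom
  refine ⟨⟨V, hV, (X.str.appLE ⊤ V e).hom.comp φ, fun a => ?_, ?_⟩, hzV⟩
  · show X.str.appLE ⊤ V e ((Scheme.ΓSpecIso (CommRingCat.of K)).inv a) = _
    rw [Scheme.Hom.appLE]
    rfl
  · exact RingHom.isStandardSmoothOfRelativeDimension_respectsIso.2 _
      (Scheme.ΓSpecIso (CommRingCat.of K)).symm.commRingCatIsoToRingEquiv hs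

/-- Each point of an open set specialises to a rational point of that open set. -/
theorem exists_pt_specializes {U : X.A.Opens} {z : X.A} (hz : z ∈ U) :
    ∃ p : X.Pt K, X.img p ∈ U ∧ z ⤳ X.img p := by
  obtain ⟨y, ⟨hy, hyU⟩, hyc⟩ := nonempty_inter_closedPoints
    (Z := closure {z} ∩ (U : Set X.A)) ⟨z, subset_closure rfl, hz⟩
    (isClosed_closure.isLocallyClosed.inter U.isOpen.isLocallyClosed)
  obtain ⟨p, hp⟩ := X.exists_pt_of_isClosed (mem_closedPoints_iff.mp hyc)
  exact ⟨p, hp ▸ hyU, hp ▸ specializes_iff_mem_closure.mpr hy⟩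

namespace Chart

variable {X}
variable (c : X.Chart)

/-- The algebra of a chart. -/
@[reducible] def algebra : Algebra K Γ(X.A, c.U) := c.hom.toAlgebra

omit [IsAlgClosed K] in
theorem germ_hom {z : X.A} (hz : z ∈ c.U) (a : K) :
    X.A.presheaf.germ c.U z hz (c.hom a) = X.cst z a := by
  rw [c.hom_eq, TopCat.Presheaf.germ_res_apply]
  rfl

/-- The evaluation at a rational point of the chart. -/
def evalAt (p : X.Pt K) (hp : X.img p ∈ c.U) :
    letI := c.algebra; Γ(X.A, c.U) →ₐ[K] K :=
  letI := c.algebra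
  { (X.stk p).comp (X.A.presheaf.germ c.U (X.img p) hp).hom with
    commutes' := fun a => by
      show X.stk p (X.A.presheaf.germ c.U (X.img p) hp (c.hom a)) = _
      rw [c.germ_hom hp, X.stk_cst] }

omit [IsAlgClosed K] in
theorem ker_evalAt (p : X.Pt K) (hp : X.img p ∈ c.U) :
    letI := c.algebra
    RingHom.ker (c.evalAt p hp) = (c.affine.primeIdealOf ⟨X.img p, hp⟩).asIdeal := by
  let := c.algebra
  let := X.A.presheaf.algebra_section_stalk (⟨X.img p, hp⟩ : c.U)
  have := c.affine.isLocalization_stalk ⟨X.img p, hp⟩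
  rw [← IsLocalization.AtPrime.under_maximalIdeal (X.A.presheaf.stalk (X.img p))
    (c.affine.primeIdealOf ⟨X.img p, hp⟩).asIdeal]
  ext r
  rw [RingHom.mem_ker, Ideal.mem_comap, IsLocalRing.mem_maximalIdeal, mem_nonunits_iff]
  show X.stk p (X.A.presheaf.germ c.U (X.img p) hp r) = 0 ↔ _
  constructor
  · intro h hu
    exact not_isUnit_zero (h ▸ hu.map (X.stk p))
  · intro h
    by_contra hne
    exact h (IsLocalHom.map_nonunit (f := X.stk p) _ (isUnit_iff_ne_zero.mpr hne))

omit [IsAlgClosed K] in
theorem nonempty_expansion (p : X.Pt K) (hp : X.img p ∈ c.U) :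
    letI := (X.cst (X.img p)).toAlgebra
    Nonempty (Expansion K (X.A.presheaf.stalk (X.img p)) X.dim) := by
  let := c.algebra
  let := (X.cst (X.img p)).toAlgebra
  let := X.A.presheaf.algebra_section_stalk (⟨X.img p, hp⟩ : c.U)
  have : IsScalarTower K Γ(X.A, c.U) (X.A.presheaf.stalk (X.img p)) :=
    IsScalarTower.of_algebraMap_eq fun a => (c.germ_hom hp a).symm
  have : Algebra.IsStandardSmoothOfRelativeDimension X.dim K Γ(X.A, c.U) := c.smooth
  have : (RingHom.ker (c.evalAt p hp)).IsPrime := RingHom.ker_isPrime _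
  have : IsLocalization.AtPrime (X.A.presheaf.stalk (X.img p)) (RingHom.ker (c.evalAt p hp)) := by
    have h := c.affine.isLocalization_stalk ⟨X.img p, hp⟩
    simp only [c.ker_evalAt p hp]
    exact h
  exact Fermat.Agent.AbVar.nonempty_expansion (c.evalAt p hp) _

end Chart

omit [IsAlgClosed K] in
theorem nonempty_expansion_stalk (p : X.Pt K) :
    letI := (X.cst (X.img p)).toAlgebra
    Nonempty (Expansion K (X.A.presheaf.stalk (X.img p)) X.dim) := by
  obtain ⟨c, hc⟩ := X.exists_chart (X.img p)
  exact c.nonempty_expansion p hc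

omit [IsAlgClosed K] in
theorem isDomain_stalk_pt (p : X.Pt K) : IsDomain (X.A.presheaf.stalk (X.img p)) := by
  let := (X.cst (X.img p)).toAlgebra
  obtain ⟨E⟩ := X.nonempty_expansion_stalk p
  have : IsDomain (MvPowerSeries (Fin X.dim) K) := NoZeroDivisors.to_isDomain _
  exact E.injective.isDomain _

theorem isDomain_stalk (z : X.A) : IsDomain (X.A.presheaf.stalk z) := by
  obtain ⟨c, hc⟩ := X.exists_chart z
  obtain ⟨p, hp, hzp⟩ := X.exists_pt_specializes hc
  have := X.isDomain_stalk_pt p
  let := X.A.presheaf.algebra_section_stalk (⟨z, hc⟩ : c.U)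
  let := X.A.presheaf.algebra_section_stalk (⟨X.img p, hp⟩ : c.U)
  let := (X.A.presheaf.stalkSpecializes hzp).hom.toAlgebra
  have : IsScalarTower Γ(X.A, c.U) (X.A.presheaf.stalk (X.img p)) (X.A.presheaf.stalk z) :=
    IsScalarTower.of_algebraMap_eq fun a =>
      (TopCat.Presheaf.germ_stalkSpecializes_apply X.A.presheaf hp hzp a).symm
  have := c.affine.isLocalization_stalk ⟨z, hc⟩
  have := c.affine.isLocalization_stalk ⟨X.img p, hp⟩
  have hle : (c.affine.primeIdealOf ⟨X.img p, hp⟩).asIdeal.primeCompl ≤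
      (c.affine.primeIdealOf ⟨z, hc⟩).asIdeal.primeCompl := by
    intro r hr hr'
    have h1 : IsUnit (algebraMap Γ(X.A, c.U) (X.A.presheaf.stalk (X.img p)) r) :=
      IsLocalization.map_units (M := (c.affine.primeIdealOf ⟨X.img p, hp⟩).asIdeal.primeCompl) _
        ⟨r, hr⟩
    have h2 := h1.map (X.A.presheaf.stalkSpecializes hzp).hom
    rw [← RingHom.algebraMap_toAlgebra (X.A.presheaf.stalkSpecializes hzp).hom,
      ← IsScalarTower.algebraMap_apply] at h2
    exact ((IsLocalization.AtPrime.isUnit_to_map_iff (X.A.presheaf.stalk z)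
      (c.affine.primeIdealOf ⟨z, hc⟩).asIdeal r).mp h2) hr'
  have := IsLocalization.isLocalization_of_submonoid_le (X.A.presheaf.stalk (X.img p))
    (X.A.presheaf.stalk z) _ _ hle
  refine IsLocalization.isDomain_of_le_nonZeroDivisors
    (R := X.A.presheaf.stalk (X.img p))
    (M := (c.affine.primeIdealOf ⟨z, hc⟩).asIdeal.primeCompl.map
      (algebraMap Γ(X.A, c.U) (X.A.presheaf.stalk (X.img p)))) _ ?_
  rintro _ ⟨r, hr, rfl⟩
  rw [mem_nonZeroDivisors_iff_ne_zero]
  intro h0
  have h2 : algebraMap Γ(X.A, c.U) (X.A.presheaf.stalk z) r = 0 := by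
    rw [IsScalarTower.algebraMap_apply _ (X.A.presheaf.stalk (X.img p)), h0, map_zero]
  have h3 : IsUnit (algebraMap Γ(X.A, c.U) (X.A.presheaf.stalk z) r) :=
    IsLocalization.map_units (M := (c.affine.primeIdealOf ⟨z, hc⟩).asIdeal.primeCompl) _ ⟨r, hr⟩
  rw [h2] at h3
  exact not_isUnit_zero h3

/-- Two generisations of a point which are maximal are equal. -/
theorem eq_of_specializes_of_max {η₁ η₂ z : X.A} (h₁ : η₁ ⤳ z) (h₂ : η₂ ⤳ z)
    (m₁ : ∀ y, y ⤳ η₁ → η₁ ⤳ y) (m₂ : ∀ y, y ⤳ η₂ → η₂ ⤳ y) : η₁ = η₂ := by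
  have := X.isDomain_stalk z
  obtain ⟨q₁, hq₁⟩ : η₁ ∈ Set.range (X.A.fromSpecStalk z) := by
    rw [Scheme.range_fromSpecStalk]; exact h₁
  obtain ⟨q₂, hq₂⟩ : η₂ ∈ Set.range (X.A.fromSpecStalk z) := by
    rw [Scheme.range_fromSpecStalk]; exact h₂
  let η := X.A.fromSpecStalk z (⊥ : PrimeSpectrum (X.A.presheaf.stalk z))
  have hbot : ∀ q : PrimeSpectrum (X.A.presheaf.stalk z), η ⤳ X.A.fromSpecStalk z q := fun q =>
    ((PrimeSpectrum.le_iff_specializes ⊥ q).mp bot_le).map (X.A.fromSpecStalk z).continuous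
  have e₁ : η₁ = η := ((m₁ η (hq₁ ▸ hbot q₁)).antisymm (hq₁ ▸ hbot q₁)).eq
  have e₂ : η₂ = η := ((m₂ η (hq₂ ▸ hbot q₂)).antisymm (hq₂ ▸ hbot q₂)).eq
  rw [e₁, e₂]

instance isIntegral : IsIntegral X.A := by
  have := X.isNoetherian
  have : ∀ z : X.A, _root_.IsReduced (X.A.presheaf.stalk z) := fun z =>
    have := X.isDomain_stalk z; inferInstance
  have : AlgebraicGeometry.IsReduced X.A := isReduced_of_isReduced_stalk X.A
  have hconn := X.bundle.connectedFibres (closedPoint (CommRingCat.of K))
  have hne : Nonempty X.A := ⟨hconn.nonempty.some⟩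
  have hpre : PreconnectedSpace X.A := by
    refine ⟨?_⟩
    have h := hconn.isPreconnected
    convert h using 1
    exact (Set.eq_univ_of_forall fun y => Subsingleton.elim _ _).symm
  have : IrreducibleSpace X.A := by
    have hfin := TopologicalSpace.NoetherianSpace.finite_irreducibleComponents (α := X.A)
    obtain ⟨x₀⟩ := hne
    let Z := irreducibleComponent x₀
    have hZ : Z ∈ irreducibleComponents X.A := irreducibleComponent_mem_irreducibleComponents x₀
    have hmax : ∀ T ∈ irreducibleComponents X.A, ∀ η, IsGenericPoint η T →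
        ∀ y, y ⤳ η → η ⤳ y := by
      intro T hT η hη y hy
      have hsub : T ⊆ closure {y} := by
        rw [← hη.def]
        exact closure_minimal (Set.singleton_subset_iff.mpr (specializes_iff_mem_closure.mp hy))
          isClosed_closure
      have heq : T = closure {y} :=
        le_antisymm hsub (hT.2 isIrreducible_singleton.closure hsub)
      rw [specializes_iff_mem_closure, hη.def, heq]
      exact subset_closure rfl
    have hcompl : Zᶜ = ⋃ T ∈ irreducibleComponents X.A \ {Z}, T := by
      ext y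
      simp only [Set.mem_compl_iff, Set.mem_iUnion, Set.mem_sdiff, Set.mem_singleton_iff, exists_prop]
      constructor
      · intro hy
        exact ⟨irreducibleComponent y, ⟨irreducibleComponent_mem_irreducibleComponents y,
          fun h => hy (h ▸ mem_irreducibleComponent)⟩, mem_irreducibleComponent⟩
      · rintro ⟨T, ⟨hT, hne'⟩, hyT⟩ hyZ
        obtain ⟨η₁, h₁⟩ := QuasiSober.sober hZ.1 isClosed_irreducibleComponent
        obtain ⟨η₂, h₂⟩ := QuasiSober.sober hT.1 (isClosed_of_mem_irreducibleComponents T hT)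
        have heq := X.eq_of_specializes_of_max (h₁.specializes hyZ) (h₂.specializes hyT)
          (hmax Z hZ η₁ h₁) (hmax T hT η₂ h₂)
        exact hne' (by rw [← h₂.def, ← heq, h₁.def])
    have hclopen : IsClopen Z := by
      refine ⟨isClosed_irreducibleComponent, ?_⟩
      rw [← isClosed_compl_iff, hcompl]
      exact (hfin.subset Set.sdiff_subset).isClosed_biUnion fun T hT =>
        isClosed_of_mem_irreducibleComponents T hT.1
    have huniv : Z = Set.univ := hclopen.eq_univ ⟨x₀, mem_irreducibleComponent⟩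
    exact { isPreirreducible_univ := huniv ▸ hZ.1.2, toNonempty := ⟨x₀⟩ }
  exact isIntegral_of_irreducibleSpace_of_isReduced X.A

end AbData

end Fermat.Agent.AbVar
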