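import Fermat.Agent.AbVar.Scheme.Generic

/-!
# Points with values in dual numbers
-/

set_option autoImplicit false

noncomputable section

universe u

open CategoryTheory CategoryTheory.Limits AlgebraicGeometry NeronModelInfra GoodReductionJacobian
open IsLocalRing

namespace Fermat.Agent.AbVar

variable {K : Type u} [Field K]

/-- The trivial square zero extension by a vector space. -/
abbrev Dual (K : Type u) [Field K] (M : Type u) [AddCommGroup M] [Module K M] [Module Kᵐᵒᵖ M]
    [IsCentralScalar K M] : Type u :=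
  TrivSqZeroExt K M

variable {M N : Type u} [AddCommGroup M] [Module K M] [Module Kᵐᵒᵖ M] [IsCentralScalar K M]
  [AddCommGroup N] [Module K N] [Module Kᵐᵒᵖ N] [IsCentralScalar K N]

theorem isUnit_dual_iff {x : Dual K M} : IsUnit x ↔ x.fst ≠ 0 := by
  rw [TrivSqZeroExt.isUnit_iff_isUnit_fst, isUnit_iff_ne_zero]

instance : IsLocalRing (Dual K M) :=
  IsLocalRing.of_nonunits_add fun a b ha hb => by
    simp only [mem_nonunits_iff, isUnit_dual_iff, not_not] at ha hb ⊢
    simp [ha, hb]

/-- The projection. -/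
def fstA : Dual K M →ₐ[K] K := TrivSqZeroExt.fstHom K K M

instance : IsLocalHom (fstA : Dual K M →ₐ[K] K).toRingHom :=
  ⟨fun _ hx => isUnit_dual_iff.mpr hx.ne_zero⟩

instance (f : M →ₗ[K] N) : IsLocalHom (TrivSqZeroExt.map f : Dual K M →ₐ[K] Dual K N).toRingHom :=
  ⟨fun x hx => isUnit_dual_iff.mpr (by
    have h := isUnit_dual_iff.mp hx
    simpa using h)⟩

namespace AbData

variable [IsAlgClosed K] (X : AbData K)

/-- A point with values in dual numbers is determined by its values. -/
theorem dual_ext {w w' : X.Pt (Dual K M)} (h0 : X.map fstA w = X.map fstA w')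
    (h1 : ∀ h hh hh', (X.ev w ⟨h, hh⟩).snd = (X.ev w' ⟨h, hh'⟩).snd) : w = w' := by
  have hi : X.img w = X.img w' := by
    rw [← X.img_map_of_isLocalHom fstA w, h0, X.img_map_of_isLocalHom]
  refine X.pt_ext hi fun h hh hh' => TrivSqZeroExt.ext ?_ (h1 h hh hh')
  have e1 := X.ev_map fstA w hh (X.mem_loc_map _ _ hh)
  have e2 := X.ev_map fstA w' hh' (X.mem_loc_map _ _ hh')
  change fstA (X.ev w ⟨h, hh⟩) = fstA (X.ev w' ⟨h, hh'⟩)
  rw [← e1, ← e2]
  congr!

/-- A point with values in `Dual K (K × K)` is determined by its two projections. -/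
theorem dual_prod_ext {w w' : X.Pt (Dual K (K × K))}
    (h1 : X.map (TrivSqZeroExt.map (LinearMap.fst K K K)) w =
      X.map (TrivSqZeroExt.map (LinearMap.fst K K K)) w')
    (h2 : X.map (TrivSqZeroExt.map (LinearMap.snd K K K)) w =
      X.map (TrivSqZeroExt.map (LinearMap.snd K K K)) w') : w = w' := by
  have h0 : X.map fstA w = X.map fstA w' := by
    have h := congrArg (X.map (fstA (M := K))) h1
    rw [map_map, map_map] at h
    have e : (fstA (K := K) (M := K)).comp (TrivSqZeroExt.map (LinearMap.fst K K K)) = fstA :=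
      AlgHom.ext fun x => TrivSqZeroExt.fst_map _ x
    rwa [e] at h
  refine X.dual_ext h0 fun h hh hh' => Prod.ext ?_ ?_
  · have e1 := X.ev_map (TrivSqZeroExt.map (LinearMap.fst K K K)) w hh (X.mem_loc_map _ _ hh)
    have e2 := X.ev_map (TrivSqZeroExt.map (LinearMap.fst K K K)) w' hh' (X.mem_loc_map _ _ hh')
    have key : TrivSqZeroExt.map (LinearMap.fst K K K) (X.ev w ⟨h, hh⟩) =
        TrivSqZeroExt.map (LinearMap.fst K K K) (X.ev w' ⟨h, hh'⟩) := by
      rw [← e1, ← e2]; congr!
    simpa using congrArg TrivSqZeroExt.snd key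
  · have e1 := X.ev_map (TrivSqZeroExt.map (LinearMap.snd K K K)) w hh (X.mem_loc_map _ _ hh)
    have e2 := X.ev_map (TrivSqZeroExt.map (LinearMap.snd K K K)) w' hh' (X.mem_loc_map _ _ hh')
    have key : TrivSqZeroExt.map (LinearMap.snd K K K) (X.ev w ⟨h, hh⟩) =
        TrivSqZeroExt.map (LinearMap.snd K K K) (X.ev w' ⟨h, hh'⟩) := by
      rw [← e1, ← e2]; congr!
    simpa using congrArg TrivSqZeroExt.snd key

omit [IsAlgClosed K] in
/-- A tangent vector at `0`, pushed along the zero map, is `0`. -/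
theorem map_zero_of_fstA (f : M →ₗ[K] N) (hf : f = 0) (v : X.Pt (Dual K M))
    (hv : X.map fstA v = 0) : X.map (TrivSqZeroExt.map f) v = 0 := by
  subst hf
  have e : (TrivSqZeroExt.map (0 : M →ₗ[K] N) : Dual K M →ₐ[K] Dual K N) =
      (Algebra.ofId K (Dual K N)).comp fstA := by
    refine AlgHom.ext fun x => TrivSqZeroExt.ext ?_ ?_
    · simp [fstA, TrivSqZeroExt.algebraMap_eq_inl, Algebra.ofId_apply]
    · simp [fstA, TrivSqZeroExt.algebraMap_eq_inl, Algebra.ofId_apply]
  rw [e, ← map_map, hv, map_zero]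

/-- On tangent vectors, multiplication by `n` is scaling by `n`. -/
theorem nsmul_eq_scale (v : X.Pt (Dual K K)) (hv : X.map fstA v = 0) (n : ℕ) :
    n • v = X.map (TrivSqZeroExt.map ((n : K) • LinearMap.id)) v := by
  induction n with
  | zero => rw [zero_nsmul, X.map_zero_of_fstA _ (by simp) v hv]
  | succ n ih =>
    let ι1 : Dual K K →ₐ[K] Dual K (K × K) := TrivSqZeroExt.map (LinearMap.inl K K K)
    let ι2 : Dual K K →ₐ[K] Dual K (K × K) := TrivSqZeroExt.map (LinearMap.inr K K K)
    let w := X.map ι1 (n • v) + X.map ι2 v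
    let f : K →ₗ[K] K × K := LinearMap.prod ((n : K) • LinearMap.id) LinearMap.id
    let w' := X.map (TrivSqZeroExt.map f) v
    have hpush : ∀ {P Q : Type u} [AddCommGroup P] [Module K P] [Module Kᵐᵒᵖ P]
        [IsCentralScalar K P] [AddCommGroup Q] [Module K Q] [Module Kᵐᵒᵖ Q] [IsCentralScalar K Q]
        (a : K →ₗ[K] P) (b : P →ₗ[K] Q),
        X.map (TrivSqZeroExt.map b) (X.map (TrivSqZeroExt.map a) v) =
          X.map (TrivSqZeroExt.map (b ∘ₗ a)) v := by
      intros
      rw [map_map, TrivSqZeroExt.map_comp_map]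
    have hid : X.map (TrivSqZeroExt.map (LinearMap.id : K →ₗ[K] K)) v = v := by
      rw [TrivSqZeroExt.map_id]; exact X.map_id v
    have hww : w = w' := by
      refine X.dual_prod_ext ?_ ?_
      · simp only [w, w', ι1, ι2, map_add, map_nsmul, hpush]
        rw [show LinearMap.fst K K K ∘ₗ LinearMap.inl K K K = LinearMap.id by ext; simp,
          X.map_zero_of_fstA (LinearMap.fst K K K ∘ₗ LinearMap.inr K K K) (by ext; simp) v hv,
          show LinearMap.fst K K K ∘ₗ f = (n : K) • LinearMap.id by ext; simp [f],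
          hid, add_zero, ih]
      · simp only [w, w', ι1, ι2, map_add, map_nsmul, hpush]
        rw [X.map_zero_of_fstA (LinearMap.snd K K K ∘ₗ LinearMap.inl K K K) (by ext; simp) v hv,
          show LinearMap.snd K K K ∘ₗ LinearMap.inr K K K = LinearMap.id by ext; simp,
          show LinearMap.snd K K K ∘ₗ f = LinearMap.id by ext; simp [f],
          nsmul_zero, zero_add]
    have h := congrArg (X.map (TrivSqZeroExt.map (LinearMap.fst K K K + LinearMap.snd K K K))) hww
    simp only [w, w', ι1, ι2, map_add, map_nsmul, hpush] at h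
    rw [show (LinearMap.fst K K K + LinearMap.snd K K K) ∘ₗ LinearMap.inl K K K = LinearMap.id by
        ext; simp,
      show (LinearMap.fst K K K + LinearMap.snd K K K) ∘ₗ LinearMap.inr K K K = LinearMap.id by
        ext; simp,
      show (LinearMap.fst K K K + LinearMap.snd K K K) ∘ₗ f = ((n + 1 : ℕ) : K) • LinearMap.id by
        ext; simp [f], hid] at h
    rw [succ_nsmul, h]

/-- Tangent vectors have no `n`-torsion when `n` is invertible. -/
theorem eq_zero_of_nsmul (v : X.Pt (Dual K K)) (hv : X.map fstA v = 0) {n : ℕ} (hn : (n : K) ≠ 0)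
    (h : n • v = 0) : v = 0 := by
  rw [X.nsmul_eq_scale v hv] at h
  have h1 := congrArg (X.map (TrivSqZeroExt.map ((n : K)⁻¹ • LinearMap.id : K →ₗ[K] K))) h
  rw [map_map, ← TrivSqZeroExt.map_comp_map, map_zero,
    show ((n : K)⁻¹ • LinearMap.id : K →ₗ[K] K) ∘ₗ ((n : K) • LinearMap.id) = LinearMap.id by
      ext; simp [hn],
    TrivSqZeroExt.map_id] at h1
  rwa [X.map_id] at h1

end AbData

end Fermat.Agent.AbVar
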