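import Fermat.Agent.AbVar.Scheme.Points

/-!
# The valuative criterion and the reduction of points
-/

set_option autoImplicit false

noncomputable section

universe u

open CategoryTheory CategoryTheory.Limits AlgebraicGeometry NeronModelInfra GoodReductionJacobian
open IsLocalRing TopologicalSpace

namespace Fermat.Agent.AbVar

namespace AbData

variable {K : Type u} [Field K] (X : AbData K)
variable {V Ω κ : Type u} [CommRing V] [IsDomain V] [ValuationRing V] [Algebra K V]
  [Field Ω] [Algebra K Ω] [Algebra V Ω] [IsScalarTower K V Ω] [IsFractionRing V Ω]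

variable (V Ω) in
theorem bijective_map_toFractionRing :
    Function.Bijective (X.map (IsScalarTower.toAlgHom K V Ω)) := by
  have hp : IsProper X.str := X.bundle.proper
  have hv : ValuativeCriterion X.str := by
    rw [IsProper.eq_valuativeCriterion] at hp
    exact hp.1.1.1
  have hbase : Spec.map (CommRingCat.ofHom (algebraMap V Ω)) ≫ specStr K V = specStr K Ω := by
    rw [← Spec.map_comp, ← CommRingCat.ofHom_comp, ← IsScalarTower.algebraMap_eq]
  constructor
  · intro y y' h
    have w : X.map (IsScalarTower.toAlgHom K V Ω) y' = X.map (IsScalarTower.toAlgHom K V Ω) y' :=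
      rfl
    let S : ValuativeCommSq X.str :=
      { R := V, K := Ω, i₁ := (X.map (IsScalarTower.toAlgHom K V Ω) y).hom, i₂ := specStr K V,
        commSq := ⟨by rw [Pt.hom_str, hbase]⟩ }
    have := hv.uniqueness S
    have h1 : (⟨y.hom, rfl, y.hom_str⟩ : S.commSq.LiftStruct)
        = ⟨y'.hom, (congrArg Pt.hom h).symm, y'.hom_str⟩ := Subsingleton.elim _ _
    exact Pt.ext (congrArg CommSq.LiftStruct.l h1)
  · intro x
    let S : ValuativeCommSq X.str :=
      { R := V, K := Ω, i₁ := x.hom, i₂ := specStr K V,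
        commSq := ⟨by rw [Pt.hom_str, hbase]⟩ }
    obtain ⟨⟨l, hl1, hl2⟩⟩ := (hv.existence S).exists_lift
    exact ⟨⟨l, hl2⟩, Pt.ext hl1⟩

/-- The extension of a point over the valuation ring. -/
def extend (V : Type u) {Ω : Type u} [CommRing V] [IsDomain V] [ValuationRing V] [Algebra K V]
    [Field Ω] [Algebra K Ω] [Algebra V Ω] [IsScalarTower K V Ω] [IsFractionRing V Ω] :
    X.Pt Ω ≃+ X.Pt V :=
  (AddEquiv.ofBijective (X.map (IsScalarTower.toAlgHom K V Ω))
    (X.bijective_map_toFractionRing V Ω)).symm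

@[simp]
theorem map_extend (x : X.Pt Ω) : X.map (IsScalarTower.toAlgHom K V Ω) (X.extend V x) = x :=
  (AddEquiv.ofBijective (X.map (IsScalarTower.toAlgHom K V Ω))
    (X.bijective_map_toFractionRing V Ω)).apply_symm_apply x

theorem extend_map (y : X.Pt V) : X.extend V (X.map (IsScalarTower.toAlgHom K V Ω) y) = y :=
  (AddEquiv.ofBijective (X.map (IsScalarTower.toAlgHom K V Ω))
    (X.bijective_map_toFractionRing V Ω)).symm_apply_apply y

variable [CommRing κ] [Algebra K κ]

/-- The reduction of a point along a homomorphism out of the valuation ring. -/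
def red (r : V →ₐ[K] κ) : X.Pt Ω →+ X.Pt κ :=
  (X.map r).comp (X.extend V).toAddMonoidHom

theorem red_apply (r : V →ₐ[K] κ) (x : X.Pt Ω) : X.red r x = X.map r (X.extend V x) := rfl

theorem red_map (r : V →ₐ[K] κ) {R : Type u} [CommRing R] [Algebra K R] (ψ : R →ₐ[K] V)
    (y : X.Pt R) :
    X.red r (X.map ((IsScalarTower.toAlgHom K V Ω).comp ψ) y) = X.map (r.comp ψ) y := by
  rw [red_apply, ← X.map_map ψ, extend_map, map_map]

variable [IsIntegral X.A] [IsLocalRing κ]

omit [AlgebraicGeometry.IsIntegral X.A] in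
theorem img_specializes_red (r : V →ₐ[K] κ) [IsLocalHom r.toRingHom] (x : X.Pt Ω) :
    X.img x ⤳ X.img (X.red r x) := by
  rw [red_apply, img_map_of_isLocalHom]
  nth_rw 1 [← X.map_extend (V := V) x]
  exact X.img_map_specializes _ _

theorem ev_red (r : V →ₐ[K] κ) [IsLocalHom r.toRingHom] (x : X.Pt Ω) {h : X.Fun}
    (hh : h ∈ X.loc (X.img (X.red r x))) (hh' : h ∈ X.loc (X.img x)) :
    ∃ c : V, X.ev x ⟨h, hh'⟩ = algebraMap V Ω c ∧ r c = X.ev (X.red r x) ⟨h, hh⟩ := by
  have h0 : h ∈ X.loc (X.img (X.extend V x)) := by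
    have := hh
    rw [red_apply, img_map_of_isLocalHom] at this
    exact this
  refine ⟨X.ev (X.extend V x) ⟨h, h0⟩, ?_, (X.ev_map r _ h0 hh).symm⟩
  have h2 : h ∈ X.loc (X.img (X.map (IsScalarTower.toAlgHom K V Ω) (X.extend V x))) := by
    rw [map_extend]; exact hh'
  have h1 := X.ev_map (IsScalarTower.toAlgHom K V Ω) (X.extend V x) h0 h2
  exact Eq.trans (by congr! <;> exact (X.map_extend x).symm) h1

end AbData

end Fermat.Agent.AbVar
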