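import Fermat.Agent.AbVar.Scheme.Chart
import Fermat.Agent.AbVar.Scheme.Valuative

/-!
# The generic point, translations and multiples as rational self maps
-/

set_option autoImplicit false

noncomputable section

universe u

open CategoryTheory CategoryTheory.Limits AlgebraicGeometry NeronModelInfra GoodReductionJacobian
open IsLocalRing TopologicalSpace

namespace Fermat.Agent.AbVar

namespace AbData

variable {K : Type u} [Field K] [IsAlgClosed K] (X : AbData K)
variable {R S : Type u} [CommRing R] [Algebra K R] [CommRing S] [Algebra K S]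

/-- A rational point as a point with values in any algebra. -/
def const (R : Type u) [CommRing R] [Algebra K R] : X.Pt K →+ X.Pt R :=
  X.map (Algebra.ofId K R)

omit [IsAlgClosed K] in
theorem map_const (φ : R →ₐ[K] S) (a : X.Pt K) : X.map φ (X.const R a) = X.const S a := by
  rw [const, map_map]
  exact X.map_congr (fun r => by simp [Algebra.ofId_apply]) a

omit [IsAlgClosed K] in
theorem const_self (a : X.Pt K) : X.const K a = a := by
  exact (X.map_congr (ψ := AlgHom.id K K) (fun r => rfl) a).trans (X.map_id a)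

/-- `x ↦ n x + a`. -/
def act (n : ℕ) (a : X.Pt K) (x : X.Pt R) : X.Pt R := n • x + X.const R a

omit [IsAlgClosed K] in
theorem map_act (n : ℕ) (a : X.Pt K) (φ : R →ₐ[K] S) (x : X.Pt R) :
    X.map φ (X.act n a x) = X.act n a (X.map φ x) := by
  rw [act, act, map_add, map_nsmul, map_const]

omit [IsAlgClosed K] in
theorem act_act (m n : ℕ) (a b : X.Pt K) (x : X.Pt R) :
    X.act m a (X.act n b x) = X.act (m * n) (m • b + a) x := by
  rw [act, act, act, smul_add, map_add, map_nsmul, mul_nsmul', ← add_assoc]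

variable {V Ω κ : Type u} [CommRing V] [IsDomain V] [ValuationRing V] [Algebra K V]
  [Field Ω] [Algebra K Ω] [Algebra V Ω] [IsScalarTower K V Ω] [IsFractionRing V Ω]
  [CommRing κ] [Algebra K κ]

omit [IsAlgClosed K] in
theorem red_const (r : V →ₐ[K] κ) (a : X.Pt K) : X.red r (X.const Ω a) = X.const κ a := by
  rw [← X.map_const (IsScalarTower.toAlgHom K V Ω), ← X.map_id (X.const V a)]
  have := X.red_map r (AlgHom.id K V) (X.const V a) (Ω := Ω)
  rw [AlgHom.comp_id] at this
  rw [map_id, this, map_const]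

/-! ### The canonical points -/

instance (z : X.A) : IsLocalHom (AlgHom.id K (X.loc z)).toRingHom := ⟨fun _ h => h⟩

/-- The canonical point with values in a local ring of `A`. -/
def locPt (z : X.A) : X.Pt (X.loc z) := X.mkPt z (AlgHom.id K _)

theorem img_locPt (z : X.A) : X.img (X.locPt z) = z :=
  @img_mkPt K _ X (X.loc z) _ _ _ _ z _ ⟨fun _ h => h⟩

theorem ev_locPt (z : X.A) {h : X.Fun} (hh : h ∈ X.loc z) (hh' : h ∈ X.loc (X.img (X.locPt z))) :
    X.ev (X.locPt z) ⟨h, hh'⟩ = ⟨h, hh⟩ :=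
  @ev_mkPt K _ X (X.loc z) _ _ _ _ z _ ⟨fun _ h => h⟩ _ hh hh'

/-- The generic point. -/
def genPt : X.Pt X.Fun :=
  X.map (X.loc (genericPoint X.A)).val (X.locPt (genericPoint X.A))

theorem loc_genericPoint : X.loc (genericPoint X.A) = ⊤ := by
  rw [eq_top_iff]
  intro h _
  refine ⟨h, ?_⟩
  show X.A.presheaf.stalkSpecializes ((genericPoint_spec X.A).specializes trivial) h = h
  rw [TopCat.Presheaf.stalkSpecializes_refl]; rfl

theorem isUnit_of_isUnit_val_genericPoint {h : X.loc (genericPoint X.A)}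
    (hu : IsUnit (h : X.Fun)) : IsUnit h :=
  isUnit_iff_exists_inv.mpr ⟨⟨(h : X.Fun)⁻¹, X.loc_genericPoint.ge trivial⟩,
    Subtype.ext (mul_inv_cancel₀ hu.ne_zero)⟩

instance : IsLocalHom (X.loc (genericPoint X.A)).val.toRingHom where
  map_nonunit _ := X.isUnit_of_isUnit_val_genericPoint

theorem img_genPt : X.img X.genPt = genericPoint X.A :=
  (@img_map_of_isLocalHom K _ X (X.loc (genericPoint X.A)) X.Fun _ _ _ _ _ _ _
    ⟨fun _ => X.isUnit_of_isUnit_val_genericPoint⟩ _).trans (X.img_locPt _)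

theorem ev_genPt {h : X.Fun} (hh : h ∈ X.loc (X.img X.genPt)) : X.ev X.genPt ⟨h, hh⟩ = h := by
  have h1 : h ∈ X.loc (genericPoint X.A) := by rw [X.loc_genericPoint]; trivial
  have h2 : h ∈ X.loc (X.img (X.locPt (genericPoint X.A))) := by rwa [X.img_locPt]
  exact (X.ev_map _ _ h2 hh).trans (by rw [X.ev_locPt _ h1]; rfl)

/-- A point with values in a field at which evaluation is injective lies over the generic point. -/
theorem img_eq_genericPoint {F : Type u} [Field F] [Algebra K F] (x : X.Pt F)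
    (hinj : ∀ h, ∀ hh : h ∈ X.loc (X.img x), X.ev x ⟨h, hh⟩ = 0 → h = 0) :
    X.img x = genericPoint X.A := by
  obtain ⟨c, hc⟩ := X.exists_chart (X.img x)
  have : Nonempty c.U := ⟨⟨_, hc⟩⟩
  have hgen : genericPoint X.A ∈ c.U :=
    ((genericPoint_spec X.A).mem_open_set_iff c.U.isOpen).mpr (by simpa using ‹Nonempty c.U›)
  have h0 : (c.affine.primeIdealOf ⟨X.img x, hc⟩).asIdeal = ⊥ := by
    let := X.A.presheaf.algebra_section_stalk (⟨X.img x, hc⟩ : c.U)
    have := c.affine.isLocalization_stalk ⟨X.img x, hc⟩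
    rw [← IsLocalization.AtPrime.under_maximalIdeal (X.A.presheaf.stalk (X.img x))
      (c.affine.primeIdealOf ⟨X.img x, hc⟩).asIdeal, eq_bot_iff]
    intro r hr
    rw [Ideal.mem_comap, IsLocalRing.mem_maximalIdeal, mem_nonunits_iff] at hr
    have hmem : X.toFun _ (X.A.presheaf.germ c.U (X.img x) hc r) ∈ X.loc (X.img x) := ⟨_, rfl⟩
    have he : X.ev x ⟨_, hmem⟩ = 0 := by
      by_contra hne
      apply hr
      have h1 := (X.isUnit_ev_iff x ⟨_, hmem⟩).mp (isUnit_iff_ne_zero.mpr hne)
      have h2 := h1.map (X.stalkEquiv (X.img x)).symm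
      convert h2 using 1
      apply X.toFun_injective
      rw [toFun_stalkEquiv_symm]
      rfl
    have h3 := hinj _ hmem he
    rw [← (X.toFun (X.img x)).map_zero] at h3
    have h4 := X.toFun_injective _ h3
    rw [← (X.A.presheaf.germ c.U (X.img x) hc).hom.map_zero] at h4
    exact Ideal.mem_bot.mpr (germ_injective_of_isIntegral X.A (X.img x) hc h4)
  have heq : c.affine.primeIdealOf ⟨X.img x, hc⟩ = c.affine.primeIdealOf ⟨genericPoint X.A, hgen⟩ := by
    rw [c.affine.primeIdealOf_genericPoint, genericPoint_eq_bot_of_affine]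
    exact PrimeSpectrum.ext h0
  have h := congrArg c.affine.fromSpec heq
  rwa [c.affine.fromSpec_primeIdealOf, c.affine.fromSpec_primeIdealOf] at h

theorem map_val_locPt (z : X.A) : X.map (X.loc z).val (X.locPt z) = X.genPt := by
  set w := X.map (X.loc z).val (X.locPt z)
  have hev : ∀ h (hz : h ∈ X.loc z) (hw : h ∈ X.loc (X.img w)), X.ev w ⟨h, hw⟩ = h := by
    intro h hz hw
    have h2 : h ∈ X.loc (X.img (X.locPt z)) := by rwa [X.img_locPt]
    exact (X.ev_map _ _ h2 hw).trans (by rw [X.ev_locPt z hz]; rfl)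
  have hle : X.loc z ≤ X.loc (X.img w) := by
    conv_lhs => rw [← X.img_locPt z]
    exact fun _ => X.mem_loc_map _ _
  have hall : ∀ h (hw : h ∈ X.loc (X.img w)), X.ev w ⟨h, hw⟩ = h := by
    intro h hw
    obtain ⟨a, b, hb, hab⟩ := IsFractionRing.div_surjective (A := X.A.presheaf.stalk z) h
    have ha' : X.toFun z a ∈ X.loc z := ⟨a, rfl⟩
    have hb' : X.toFun z b ∈ X.loc z := ⟨b, rfl⟩
    have hb0 : X.toFun z b ≠ 0 := fun h0 =>
      nonZeroDivisors.ne_zero hb (X.toFun_injective z (by rw [h0, map_zero]))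
    have hab' : h * X.toFun z b = X.toFun z a := by
      rw [← hab]; exact div_mul_cancel₀ _ hb0
    have h1 : X.ev w ⟨h, hw⟩ * X.ev w ⟨_, hle hb'⟩ = X.ev w ⟨_, hle ha'⟩ := by
      rw [← map_mul]; congr 1; exact Subtype.ext hab'
    rw [hev _ hb' _, hev _ ha' _, ← hab'] at h1
    exact mul_right_cancel₀ hb0 h1
  have himg : X.img w = genericPoint X.A :=
    X.img_eq_genericPoint w fun h hh h0 => by rwa [hall] at h0
  exact X.pt_ext (himg.trans X.img_genPt.symm) fun h hh hg => by rw [hall, X.ev_genPt]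

theorem eq_map_locPt {R : Type u} [CommRing R] [Algebra K R] [IsLocalRing R] (x : X.Pt R) :
    X.map (X.ev x) (X.locPt (X.img x)) = x := by
  have : IsLocalHom (X.ev x).toRingHom :=
    ⟨fun h hu => (X.isUnit_ev_iff x h).mp hu⟩
  have hi : X.img (X.map (X.ev x) (X.locPt (X.img x))) = X.img x := by
    rw [img_map_of_isLocalHom, img_locPt]
  refine X.pt_ext hi fun h hh hh' => ?_
  have h2 : h ∈ X.loc (X.img (X.locPt (X.img x))) := by rwa [X.img_locPt]
  rw [X.ev_map _ _ h2 hh, X.ev_locPt _ hh']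

/-! ### Pullback by natural operations -/

end AbData

end Fermat.Agent.AbVar
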