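import Fermat.Agent.AbVar.Scheme.CartierData
import Fermat.Agent.AbVar.Scheme.Tangent
import Fermat.Agent.AbVar.LocalAlg.Colon

/-!
# Translations, divisibility, and coordinates
-/

set_option autoImplicit false

noncomputable section

universe u

open CategoryTheory CategoryTheory.Limits AlgebraicGeometry NeronModelInfra GoodReductionJacobian
open IsLocalRing TopologicalSpace
open scoped Classical

namespace Fermat.Agent.AbVar

namespace AbData

variable {K : Type u} [Field K] [IsAlgClosed K] (X : AbData K)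

theorem hasColonGenerators : X.HasColonGenerators := by
  intro p a b ha
  obtain ⟨E⟩ := X.nonempty_expansion_loc p
  have := X.isNoetherian
  have : IsNoetherianRing (X.loc (X.img p)) :=
    isNoetherianRing_of_ringEquiv _ (X.stalkEquiv (X.img p))
  exact E.exists_colon_generator a b ha

/-- Cartier data clearing the denominators of coordinates around the origin. -/
theorem exists_coords :
    ∃ (D : X.CartierData) (U : X.A.Opens) (S : Finset X.Fun), X.img (0 : X.Pt K) ∈ U ∧
      (∀ h ∈ S, ∀ z ∈ U, h ∈ X.loc z) ∧ (∀ h ∈ S, ∀ z, h * D.gen z ∈ X.loc z) ∧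
      (∀ p : X.Pt K, X.img p ∈ U → ∀ hS : ∀ h ∈ S, h ∈ X.loc (X.img p),
        maximalIdeal (X.loc (X.img p)) = Ideal.span (Set.range fun h : S =>
          (⟨h.1, hS h.1 h.2⟩ : X.loc (X.img p)) -
            algebraMap K _ (X.ev p ⟨h.1, hS h.1 h.2⟩))) ∧
      ∀ p q : X.Pt K, X.img p ∈ U → X.img q ∈ U →
        (∀ h ∈ S, ∀ hp hq, X.ev p ⟨h, hp⟩ = X.ev q ⟨h, hq⟩) → p = q := by
  obtain ⟨U, S, h0, hreg, hmax, hsep⟩ := X.exists_coords_chart
  obtain ⟨D, hD⟩ := X.exists_cartierData X.hasColonGenerators S
  exact ⟨D, U, S, h0, hreg, fun h hh z => mul_comm (D.gen z) h ▸ hD z h hh, hmax, hsep⟩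

omit [IsAlgClosed K] in
/-- The constant morphism with value a rational point, as an `A`-valued point. -/
def constScheme (a : X.Pt K) : SchemeHomOver X.str X.str :=
  schemeHomOverComp X.str (by rw [specStr_self, Category.comp_id]) a

/-- The endomorphism `x ↦ n x + a`. -/
def endoMor (n : ℕ) (a : X.Pt K) : SchemeHomOver X.str X.str :=
  X.law.mul X.str (X.law.nsmul X.str n RelativeGroupLaw.idPoint) (X.constScheme a)

variable {R : Type u} [CommRing R] [Algebra K R]

omit [IsAlgClosed K] in
theorem law_nsmul_eq (n : ℕ) (x : X.Pt R) : X.law.nsmul (specStr K R) n x = n • x := by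
  induction n with
  | zero => rw [zero_nsmul]; rfl
  | succ n ih =>
    rw [RelativeGroupLaw.nsmul_succ, ih, succ_nsmul]
    rfl

omit [IsAlgClosed K] in
theorem hom_act (n : ℕ) (a : X.Pt K) (x : X.Pt R) :
    (X.act n a x).hom = x.hom ≫ (X.endoMor n a).1 := by
  have h1 := X.law.mul_natural X.str (specStr K R) x.hom x.hom_str
    (X.law.nsmul X.str n RelativeGroupLaw.idPoint) (X.constScheme a)
  have h2 : schemeHomOverComp x.hom x.hom_str (RelativeGroupLaw.idPoint (f := X.str)) = x :=
    Subtype.ext (Category.comp_id _)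
  rw [RelativeGroupLaw.nsmul_natural, h2, X.law_nsmul_eq] at h1
  have h3 : schemeHomOverComp x.hom x.hom_str (X.constScheme a) = X.const R a := by
    refine Subtype.ext ?_
    show x.hom ≫ X.str ≫ a.hom = _
    rw [← Category.assoc, x.hom_str]
    rfl
  rw [h3] at h1
  exact (congrArg Subtype.val h1).symm

variable [IsLocalRing R]

omit [IsAlgClosed K] in
theorem img_act (n : ℕ) (a : X.Pt K) (x : X.Pt R) :
    X.img (X.act n a x) = (X.endoMor n a).1 (X.img x) := by
  show (X.act n a x).hom _ = _
  rw [X.hom_act]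
  rfl

omit [IsLocalRing R] in
theorem endoMor_genericPoint {n : ℕ} (hn : (n : K) ≠ 0) (a : X.Pt K) :
    (X.endoMor n a).1 (genericPoint X.A) = genericPoint X.A := by
  rw [← X.img_genPt, ← X.img_act, X.img_act_genPt hn]
  exact X.img_genPt.symm

/-- Finitely many points can be translated into a nonempty open set. -/
theorem exists_translate {U : X.A.Opens} (hU : (U : Set X.A).Nonempty) (T : Finset (X.Pt K)) :
    ∃ p : X.Pt K, ∀ a ∈ T, X.img (p + a) ∈ U := by
  have h1 : ((1 : ℕ) : K) ≠ 0 := by simp
  let W : X.A.Opens := T.inf fun a => (X.endoMor 1 a).1 ⁻¹ᵁ U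
  have hgen : genericPoint X.A ∈ W := by
    have hU' : genericPoint X.A ∈ U := X.genericPoint_mem hU.some_mem
    show genericPoint X.A ∈ T.inf _
    induction T using Finset.induction with
    | empty => simp
    | @insert a T _ ih =>
      rw [Finset.inf_insert]
      refine ⟨?_, ih⟩
      show (X.endoMor 1 a).1 (genericPoint X.A) ∈ U
      rwa [X.endoMor_genericPoint h1]
  obtain ⟨p, hp, -⟩ := X.exists_pt_specializes hgen
  refine ⟨p, fun a ha => ?_⟩
  have hmem : X.img p ∈ (X.endoMor 1 a).1 ⁻¹ᵁ U :=
    (Finset.inf_le (f := fun a => (X.endoMor 1 a).1 ⁻¹ᵁ U) ha :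
      W ≤ (X.endoMor 1 a).1 ⁻¹ᵁ U) hp
  have : X.act 1 a p = p + a := by rw [act, one_nsmul, const_self]
  rw [← this, X.img_act]
  exact hmem

/-- Divisibility of the points with values in an algebraically closed field. -/
theorem nsmul_surjective {n : ℕ} (hn : (n : K) ≠ 0) {Ω : Type u} [Field Ω] [Algebra K Ω]
    [IsAlgClosed Ω] : Function.Surjective fun x : X.Pt Ω => n • x := by
  intro y
  let m := (X.endoMor n 0).1
  have hm : m ≫ X.str = X.str := (X.endoMor n 0).2
  have hX := X.isProper
  have hmp : IsProper (m ≫ X.str) := by rw [hm]; exact hX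
  have : IsProper m := IsProper.of_comp m X.str
  have hsurj : Function.Surjective m := by
    intro z
    have hcl : IsClosed (Set.range m) := m.isClosedMap.isClosed_range
    have : closure {genericPoint X.A} ⊆ Set.range m :=
      closure_minimal (Set.singleton_subset_iff.mpr ⟨_, X.endoMor_genericPoint hn 0⟩) hcl
    rw [(genericPoint_spec X.A).def] at this
    exact this trivial
  have : Surjective m := ⟨hsurj⟩
  let P := pullback m y.hom
  let pr : P ⟶ Spec (CommRingCat.of Ω) := pullback.snd m y.hom
  obtain ⟨q₀, -⟩ := pr.surjective (closedPoint (CommRingCat.of Ω))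
  have : JacobsonSpace P := LocallyOfFiniteType.jacobsonSpace pr
  obtain ⟨q, -, hqc⟩ := nonempty_inter_closedPoints (Z := (Set.univ : Set P)) ⟨q₀, trivial⟩
    isClosed_univ.isLocallyClosed
  let s := pointOfClosedPoint pr q (mem_closedPoints_iff.mp hqc)
  have hs : s ≫ pr = 𝟙 _ := pointOfClosedPoint_comp pr q _
  have hx : (s ≫ pullback.fst m y.hom) ≫ m = y.hom := by
    rw [Category.assoc, pullback.condition, ← Category.assoc, hs, Category.id_comp]
  refine ⟨⟨s ≫ pullback.fst m y.hom, ?_⟩, ?_⟩
  · rw [← hm, ← Category.assoc, hx]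
    exact y.hom_str
  · refine Pt.ext ?_
    have h := X.hom_act n 0 (⟨s ≫ pullback.fst m y.hom, by
      rw [← hm, ← Category.assoc, hx]; exact y.hom_str⟩ : X.Pt Ω)
    rw [act, map_zero, add_zero] at h
    exact h.trans hx

end AbData

end Fermat.Agent.AbVar
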