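import Mathlib
import Fermat.Prelude.Def_JacJ1Iface
import Fermat.Prelude.Def_GoodReductionJacobian_RelativeGroupLawKernel

/-!
# Points of an abelian scheme over a field, with values in algebras

`Pt X R` is the group of `R`-valued points.  For a local ring `R` a point has an image `img` in the
scheme and an evaluation map `ev` on the functions (inside the function field) regular there.
-/

set_option autoImplicit false

noncomputable section

universe u

open CategoryTheory CategoryTheory.Limits AlgebraicGeometry NeronModelInfra GoodReductionJacobian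
open IsLocalRing TopologicalSpace

namespace Fermat.Agent.AbVar

/-- An abelian scheme over a field with a chosen commutative group law. -/
structure AbData (K : Type u) [Field K] where
  A : Scheme.{u}
  str : A ⟶ Spec (CommRingCat.of K)
  law : RelativeGroupLaw K str
  comm : law.IsCommutative
  bundle : AbelianSchemePropertyBundle K str
  dim : ℕ
  smooth : SmoothOfRelativeDimension dim str

variable {K : Type u} [Field K] (X : AbData K)

/-- The structure map of the spectrum of a `K`-algebra. -/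
abbrev specStr (K : Type u) [Field K] (R : Type u) [CommRing R] [Algebra K R] :
    Spec (CommRingCat.of R) ⟶ Spec (CommRingCat.of K) :=
  Spec.map (CommRingCat.ofHom (algebraMap K R))

/-- The points with values in a `K`-algebra. -/
def AbData.Pt (R : Type u) [CommRing R] [Algebra K R] : Type u :=
  SchemeHomOver (specStr K R) X.str

variable {R S T : Type u} [CommRing R] [Algebra K R] [CommRing S] [Algebra K S]
  [CommRing T] [Algebra K T]

theorem app_comp_specMap {Y : Scheme.{u}} {R S : CommRingCat.{u}} [IsLocalRing R] [IsLocalRing S]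
    (f : Spec R ⟶ Y) (φ : R ⟶ S) (U : Y.Opens) (hU : f (closedPoint R) ∈ U)
    (hU' : (Spec.map φ ≫ f) (closedPoint S) ∈ U) :
    (Spec.map φ ≫ f).app U ≫ ((Spec S).presheaf.mapIso
        (eqToIso (Scheme.preimage_eq_top_of_closedPoint_mem _ hU').symm).op ≪≫
          Scheme.ΓSpecIso S).hom =
      f.app U ≫ ((Spec R).presheaf.mapIso
        (eqToIso (Scheme.preimage_eq_top_of_closedPoint_mem _ hU).symm).op ≪≫
          Scheme.ΓSpecIso R).hom ≫ φ := by
  simp only [Iso.trans_hom, Functor.mapIso_hom, Category.assoc, Iso.op_hom]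
  rw [← Scheme.ΓSpecIso_naturality]
  simp [Scheme.Hom.app_eq_appLE]

namespace AbData

/-- The underlying morphism of a point. -/
def Pt.hom {X : AbData K} (x : X.Pt R) : Spec (CommRingCat.of R) ⟶ X.A := x.1

theorem Pt.hom_str {X : AbData K} (x : X.Pt R) : x.hom ≫ X.str = specStr K R := x.2

theorem Pt.ext {X : AbData K} {x y : X.Pt R} (h : x.hom = y.hom) : x = y := Subtype.ext h

instance : Zero (X.Pt R) := ⟨X.law.one _⟩
instance : Neg (X.Pt R) := ⟨fun x => X.law.inv _ x⟩
instance : Add (X.Pt R) := ⟨fun x y => X.law.mul _ x y⟩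

instance : AddCommGroup (X.Pt R) where
  add_assoc := X.law.mul_assoc _
  zero_add := X.law.one_mul _
  add_zero := X.law.mul_one _
  nsmul := nsmulRec
  zsmul := zsmulRec
  neg_add_cancel := X.law.inv_mul_cancel _
  add_comm := X.comm _

omit [Algebra K R] [Algebra K S] in
theorem specMap_specStr [Algebra K R] [Algebra K S] (φ : R →ₐ[K] S) :
    Spec.map (CommRingCat.ofHom φ.toRingHom) ≫ specStr K R = specStr K S := by
  rw [← Spec.map_comp, ← CommRingCat.ofHom_comp]
  exact congrArg (fun ψ => Spec.map (CommRingCat.ofHom ψ)) φ.comp_algebraMap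

/-- Functoriality of points. -/
def map (φ : R →ₐ[K] S) : X.Pt R →+ X.Pt S :=
  AddMonoidHom.mk' (fun x => schemeHomOverComp (Spec.map (CommRingCat.ofHom φ.toRingHom))
      (specMap_specStr φ) x)
    fun x y => X.law.mul_natural _ _ _ (specMap_specStr φ) x y

theorem hom_map (φ : R →ₐ[K] S) (x : X.Pt R) :
    (X.map φ x).hom = Spec.map (CommRingCat.ofHom φ.toRingHom) ≫ x.hom := rfl

theorem map_map (φ : R →ₐ[K] S) (ψ : S →ₐ[K] T) (x : X.Pt R) :
    X.map ψ (X.map φ x) = X.map (ψ.comp φ) x := by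
  refine Pt.ext ?_
  rw [hom_map, hom_map, hom_map, ← Category.assoc, ← Spec.map_comp, ← CommRingCat.ofHom_comp]
  rfl

theorem map_id (x : X.Pt R) : X.map (AlgHom.id K R) x = x := by
  refine Pt.ext ?_
  rw [hom_map]
  show Spec.map (CommRingCat.ofHom (RingHom.id R)) ≫ x.hom = x.hom
  rw [CommRingCat.ofHom_id, Spec.map_id, Category.id_comp]

theorem map_congr {φ ψ : R →ₐ[K] S} (h : ∀ r, φ r = ψ r) (x : X.Pt R) : X.map φ x = X.map ψ x := by
  rw [AlgHom.ext h]

/-! ### The function field -/

variable [IsIntegral X.A]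

/-- The function field. -/
abbrev Fun : Type u := X.A.functionField

/-- The constants in the stalks. -/
def cst (z : X.A) : K →+* X.A.presheaf.stalk z :=
  ((Scheme.ΓSpecIso (CommRingCat.of K)).inv ≫ X.str.appTop ≫
    X.A.presheaf.germ ⊤ z trivial).hom

instance : Algebra K X.Fun := (X.cst (genericPoint X.A)).toAlgebra

/-- The restriction of a stalk to the function field. -/
def toFun (z : X.A) : X.A.presheaf.stalk z →+* X.Fun :=
  algebraMap (X.A.presheaf.stalk z) X.A.functionField

theorem toFun_injective (z : X.A) : Function.Injective (X.toFun z) :=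
  IsFractionRing.injective (X.A.presheaf.stalk z) X.A.functionField

theorem toFun_cst (z : X.A) (a : K) : X.toFun z (X.cst z a) = algebraMap K X.Fun a := by
  have h := X.A.presheaf.germ_stalkSpecializes (U := ⊤) (y := z) trivial
    ((genericPoint_spec X.A).specializes trivial)
  exact ConcreteCategory.congr_hom h (X.str.appTop ((Scheme.ΓSpecIso (CommRingCat.of K)).inv a))

/-- The functions regular at a point of the scheme. -/
def loc (z : X.A) : Subalgebra K X.Fun where
  toSubsemiring := (X.toFun z).range.toSubsemiring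
  algebraMap_mem' a := ⟨X.cst z a, X.toFun_cst z a⟩

theorem toFun_stalkSpecializes {z w : X.A} (h : z ⤳ w) (s : X.A.presheaf.stalk w) :
    X.toFun z (X.A.presheaf.stalkSpecializes h s) = X.toFun w s :=
  TopCat.Presheaf.stalkSpecializes_comp_apply X.A.presheaf _ h s

theorem loc_le_of_specializes {z w : X.A} (h : z ⤳ w) : X.loc w ≤ X.loc z := by
  rintro _ ⟨s, rfl⟩
  exact ⟨X.A.presheaf.stalkSpecializes h s, X.toFun_stalkSpecializes h s⟩

/-- The stalk is the ring of regular functions. -/
def stalkEquiv (z : X.A) : X.A.presheaf.stalk z ≃+* X.loc z :=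
  RingEquiv.ofBijective ((X.toFun z).codRestrict (X.loc z).toSubring fun s => ⟨s, rfl⟩)
    ⟨fun _ _ h => X.toFun_injective z (congrArg Subtype.val h),
      fun ⟨_, s, hs⟩ => ⟨s, Subtype.ext hs⟩⟩

theorem coe_stalkEquiv (z : X.A) (s : X.A.presheaf.stalk z) :
    (X.stalkEquiv z s : X.Fun) = X.toFun z s := rfl

theorem toFun_stalkEquiv_symm (z : X.A) (h : X.loc z) :
    X.toFun z ((X.stalkEquiv z).symm h) = h := by
  rw [← coe_stalkEquiv, RingEquiv.apply_symm_apply]

instance (z : X.A) : IsLocalRing (X.loc z) := (X.stalkEquiv z).isLocalRing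

instance (z : X.A) : IsFractionRing (X.A.presheaf.stalk z) X.Fun :=
  inferInstanceAs (IsFractionRing (X.A.presheaf.stalk z) X.A.functionField)

omit [IsIntegral X.A] in
theorem fromSpecStalk_str (z : X.A) :
    X.A.fromSpecStalk z ≫ X.str = Spec.map (CommRingCat.ofHom (X.cst z)) := by
  rw [← cancel_mono (Spec (CommRingCat.of K)).toSpecΓ, Category.assoc,
    Scheme.toSpecΓ_naturality, Scheme.fromSpecStalk_toSpecΓ_assoc, ← Spec.map_comp,
    ← SpecMap_ΓSpecIso_hom, ← Spec.map_comp]
  congr 1
  ext a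
  simp [cst]

/-! ### Image and evaluation -/

variable [IsLocalRing R] [IsLocalRing S]

/-- The image of the closed point. -/
def img (x : X.Pt R) : X.A := x.hom (closedPoint (CommRingCat.of R))

/-- The map on stalks. -/
def stk (x : X.Pt R) : X.A.presheaf.stalk (X.img x) →+* R :=
  (Scheme.stalkClosedPointTo x.hom).hom

instance (x : X.Pt R) : IsLocalHom (X.stk x) :=
  Scheme.isLocalHom_stalkClosedPointTo' x.hom

omit [IsIntegral X.A] in
theorem stk_cst (x : X.Pt R) (a : K) : X.stk x (X.cst (X.img x) a) = algebraMap K R a := by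
  have h1 := Scheme.germ_stalkClosedPointTo x.hom ⊤ trivial
  have h2 : (x.hom ≫ X.str).appTop = (specStr K R).appTop := by rw [x.hom_str]
  rw [Scheme.Hom.comp_appTop] at h2
  show (((Scheme.ΓSpecIso (CommRingCat.of K)).inv ≫ X.str.appTop ≫
    X.A.presheaf.germ ⊤ (X.img x) trivial) ≫ Scheme.stalkClosedPointTo x.hom) a = _
  rw [Category.assoc, Category.assoc]
  erw [h1]
  simp only [Iso.trans_hom, Functor.mapIso_hom]
  rw [← Category.assoc X.str.appTop]
  erw [h2]
  simp [specStr]

/-- Evaluation of a regular function at a point. -/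
def ev (x : X.Pt R) : X.loc (X.img x) →ₐ[K] R where
  __ := (X.stk x).comp (X.stalkEquiv (X.img x)).symm.toRingHom
  commutes' a := by
    show X.stk x ((X.stalkEquiv (X.img x)).symm (algebraMap K (X.loc (X.img x)) a)) = _
    rw [← X.stk_cst x a]
    congr 1
    apply X.toFun_injective
    rw [toFun_stalkEquiv_symm, toFun_cst]
    rfl

theorem ev_apply (x : X.Pt R) (h : X.loc (X.img x)) :
    X.ev x h = X.stk x ((X.stalkEquiv (X.img x)).symm h) := rfl

theorem isUnit_ev_iff (x : X.Pt R) (h : X.loc (X.img x)) : IsUnit (X.ev x h) ↔ IsUnit h := by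
  rw [ev_apply]
  constructor
  · intro hu
    have := IsLocalHom.map_nonunit (f := X.stk x) _ hu
    simpa using this.map (X.stalkEquiv (X.img x))
  · exact fun hu => (hu.map (X.stalkEquiv (X.img x)).symm).map _

omit [IsIntegral X.A] in
theorem img_map_specializes (φ : R →ₐ[K] S) (x : X.Pt R) : X.img (X.map φ x) ⤳ X.img x := by
  have h : Spec.map (CommRingCat.ofHom φ.toRingHom) (closedPoint (CommRingCat.of S))
      ⤳ closedPoint (CommRingCat.of R) := specializes_closedPoint _
  exact h.map x.hom.continuous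

omit [IsIntegral X.A] in
theorem img_map_of_isLocalHom (φ : R →ₐ[K] S) [IsLocalHom φ.toRingHom] (x : X.Pt R) :
    X.img (X.map φ x) = X.img x := by
  show x.hom (Spec.map (CommRingCat.ofHom φ.toRingHom) (closedPoint (CommRingCat.of S)))
    = x.hom (closedPoint (CommRingCat.of R))
  congr 1
  exact comap_closedPoint φ.toRingHom

omit [AlgebraicGeometry.IsIntegral X.A] in
theorem stk_map (φ : R →ₐ[K] S) (x : X.Pt R) (s : X.A.presheaf.stalk (X.img x)) :
    X.stk (X.map φ x) (X.A.presheaf.stalkSpecializes (X.img_map_specializes φ x) s)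
      = φ (X.stk x s) := by
  suffices h : X.A.presheaf.stalkSpecializes (X.img_map_specializes φ x) ≫
      Scheme.stalkClosedPointTo (X.map φ x).hom =
      Scheme.stalkClosedPointTo x.hom ≫ CommRingCat.ofHom φ.toRingHom from
    ConcreteCategory.congr_hom h s
  refine TopCat.Presheaf.stalk_hom_ext _ fun U hU => ?_
  have hU' : (X.map φ x).hom (closedPoint (CommRingCat.of S)) ∈ U :=
    (X.img_map_specializes φ x).mem_open U.2 hU
  erw [TopCat.Presheaf.germ_stalkSpecializes_assoc]
  erw [Scheme.germ_stalkClosedPointTo (X.map φ x).hom U hU']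
  erw [Scheme.germ_stalkClosedPointTo_assoc x.hom U hU]
  exact app_comp_specMap x.hom (CommRingCat.ofHom φ.toRingHom) U hU hU'

theorem ev_map (φ : R →ₐ[K] S) (x : X.Pt R) {h : X.Fun} (hh : h ∈ X.loc (X.img x))
    (hh' : h ∈ X.loc (X.img (X.map φ x))) :
    X.ev (X.map φ x) ⟨h, hh'⟩ = φ (X.ev x ⟨h, hh⟩) := by
  rw [ev_apply, ev_apply, ← stk_map]
  congr 1
  apply X.toFun_injective
  rw [toFun_stalkEquiv_symm, toFun_stalkSpecializes, toFun_stalkEquiv_symm]

theorem mem_loc_map (φ : R →ₐ[K] S) (x : X.Pt R) {h : X.Fun} (hh : h ∈ X.loc (X.img x)) :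
    h ∈ X.loc (X.img (X.map φ x)) :=
  X.loc_le_of_specializes (X.img_map_specializes φ x) hh

theorem pt_ext {x y : X.Pt R} (hi : X.img x = X.img y)
    (he : ∀ (h : X.Fun) (hx : h ∈ X.loc (X.img x)) (hy : h ∈ X.loc (X.img y)),
      X.ev x ⟨h, hx⟩ = X.ev y ⟨h, hy⟩) : x = y := by
  refine Pt.ext ((SpecToEquivOfLocalRing X.A (CommRingCat.of R)).injective ?_)
  refine SpecToEquivOfLocalRing_eq_iff.mpr ⟨hi, ?_⟩
  ext (s : X.A.presheaf.stalk (X.img x))
  show X.stk x s = X.stk y (X.A.presheaf.stalkSpecializes (specializes_of_eq hi.symm) s)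
  have h0 : X.toFun (X.img x) s ∈ X.loc (X.img x) := ⟨s, rfl⟩
  have hs : (X.stalkEquiv (X.img x)).symm ⟨_, h0⟩ = s :=
    X.toFun_injective _ (by rw [toFun_stalkEquiv_symm])
  have h1 := he _ h0 (hi ▸ h0)
  rw [ev_apply, ev_apply, hs] at h1
  refine h1.trans (congrArg (X.stk y) ?_)
  apply X.toFun_injective
  rw [toFun_stalkEquiv_symm, toFun_stalkSpecializes]

/-- The point attached to a local map out of the stalk at `z`. -/
def mkPt (z : X.A) (φ : X.loc z →ₐ[K] R) : X.Pt R :=
  ⟨Spec.map (CommRingCat.ofHom (φ.toRingHom.comp (X.stalkEquiv z).toRingHom)) ≫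
      X.A.fromSpecStalk z, by
    have hc : CommRingCat.ofHom (X.cst z) ≫
        CommRingCat.ofHom (φ.toRingHom.comp (X.stalkEquiv z).toRingHom) =
        CommRingCat.ofHom (algebraMap K R) := by
      ext a
      show φ (X.stalkEquiv z (X.cst z a)) = algebraMap K R a
      rw [← φ.commutes a]
      congr 1
      exact Subtype.ext (X.toFun_cst z a)
    rw [Category.assoc, X.fromSpecStalk_str, ← Spec.map_comp, hc]⟩

omit [IsLocalRing R] in
theorem isLocalHom_comp_stalkEquiv (z : X.A) (φ : X.loc z →ₐ[K] R) [IsLocalHom φ.toRingHom] :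
    IsLocalHom (φ.toRingHom.comp (X.stalkEquiv z).toRingHom) :=
  ⟨fun s hs => (isUnit_map_iff (X.stalkEquiv z) s).mp
    (IsLocalHom.map_nonunit (f := φ.toRingHom) _ hs)⟩

theorem img_mkPt (z : X.A) (φ : X.loc z →ₐ[K] R) [IsLocalHom φ.toRingHom] :
    X.img (X.mkPt z φ) = z := by
  show (Spec.map _ ≫ X.A.fromSpecStalk z) (closedPoint (CommRingCat.of R)) = z
  rw [Scheme.Hom.comp_apply]
  refine Eq.trans (congrArg (X.A.fromSpecStalk z) ?_) Scheme.fromSpecStalk_closedPoint
  have := X.isLocalHom_comp_stalkEquiv z φ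
  exact comap_closedPoint (φ.toRingHom.comp (X.stalkEquiv z).toRingHom)

theorem ev_mkPt (z : X.A) (φ : X.loc z →ₐ[K] R) [IsLocalHom φ.toRingHom] {h : X.Fun}
    (hh : h ∈ X.loc z) (hh' : h ∈ X.loc (X.img (X.mkPt z φ))) :
    X.ev (X.mkPt z φ) ⟨h, hh'⟩ = φ ⟨h, hh⟩ := by
  let ψ : X.A.presheaf.stalk z ⟶ CommRingCat.of R :=
    CommRingCat.ofHom (φ.toRingHom.comp (X.stalkEquiv z).toRingHom)
  have : IsLocalHom ψ.hom := X.isLocalHom_comp_stalkEquiv z φ
  have hz : X.img (X.mkPt z φ) = z := X.img_mkPt z φ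
  have key : X.A.presheaf.stalkSpecializes (specializes_of_eq hz) ≫
      Scheme.stalkClosedPointTo (X.mkPt z φ).hom = ψ := by
    refine TopCat.Presheaf.stalk_hom_ext _ fun U hU => ?_
    erw [TopCat.Presheaf.germ_stalkSpecializes_assoc]
    exact Scheme.germ_stalkClosedPointTo_Spec_fromSpecStalk ψ U _
  have hs : φ ⟨h, hh⟩ = ψ ((X.stalkEquiv z).symm ⟨h, hh⟩) := by
    show _ = φ (X.stalkEquiv z ((X.stalkEquiv z).symm ⟨h, hh⟩))
    rw [RingEquiv.apply_symm_apply]
  rw [hs, ← key, ev_apply]
  show X.stk _ _ = X.stk _ (X.A.presheaf.stalkSpecializes _ _)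
  congr 1
  apply X.toFun_injective
  rw [toFun_stalkEquiv_symm, toFun_stalkSpecializes, toFun_stalkEquiv_symm]

end AbData

end Fermat.Agent.AbVar
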